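import Mathlib
import Fermat.Prelude.Def_GaloisRep_LocalConditions
import Fermat.Prelude.Def_CuspForm_HeckeGaloisRepDatum
import Fermat.Agent.MUL.Lib.TraceRigidity.Density
import Fermat.Agent.MUL.S34.Transfer
import Fermat.Agent.MUL.F3.FrobDensityLiteFinal
import Fermat.Agent.MUL.Orig.S59.DefCond.StrictOrdArith
import Fermat.Agent.MUL.Lib.TraceRigidity.Points
import Fermat.Agent.MUL.Lib.DVRPoints.NumberField
import Fermat.Agent.MUL.Lib.Petersson.Main
import Fermat.Agent.MUL.S22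

section MergeWrap_S33_Glue -- from S33/Glue.lean

/-!
# S33, the glue: ordinarity at `p` is an equational condition (owner: helper11)

For a representation `ρ : GaloisRepAdic A` over a local ring `A`, put
`wo ρ σ τ = (ρ σ - det (ρ σ)) ∘ (ρ τ - 1)`.

* `wo_eq_zero_of_isOrdinaryAt` : if `ρ` is ordinary at `p` (Prelude `IsOrdinaryAt`), then
  `wo ρ σ τ = 0` for all `σ, τ` in the inertia group of any place `P ∣ p` (`WO ρ p`).
* `isOrdinaryAt_of_wo` : conversely, if `WO ρ p` holds and for every place `P ∣ p` some element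
  `σ₀` of the inertia group has `det (ρ σ₀) - 1` invertible (`IDN ρ p`; automatic when `p` is odd
  and the determinant is the cyclotomic character), then `ρ` is ordinary at `p`: the line is
  `(ρ σ₀ - 1) V`.

Since `WO` is equational, it passes to base changes, descends along jointly injective families of
base changes, and is invariant under equivalence; the same holds "modulo the maximal ideal"
(`WOres`), which is the residual ordinarity.
-/

set_option autoImplicit false

namespace Fermat.Agent.S33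

open TensorProduct IsLocalRing

local notation "GQ" => (AlgebraicClosure ℚ ≃ₐ[ℚ] AlgebraicClosure ℚ)
local notation "Qb" => (AlgebraicClosure ℚ)

variable {A : Type} [CommRing A] [IsLocalRing A]

/-- The weak-ordinarity operator `(ρ σ - det (ρ σ)) ∘ (ρ τ - 1)`. -/
noncomputable def wo (ρ : GaloisRepAdic A) (σ τ : GQ) : Module.End A ρ.V :=
  (ρ.ρ σ - LinearMap.det (ρ.ρ σ) • (1 : Module.End A ρ.V)) * (ρ.ρ τ - 1)

/-- Weak ordinarity at `p`: the operators `wo ρ σ τ` vanish on the inertia groups at `p`. -/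
def WO (ρ : GaloisRepAdic A) (p : ℕ) : Prop :=
  ∀ P : ValuationSubring Qb, P.LiesOverPrime p →
    ∀ σ ∈ P.inertiaSubgroupIn ℚ, ∀ τ ∈ P.inertiaSubgroupIn ℚ, wo ρ σ τ = 0

/-- Residual weak ordinarity at `p`: the operators `wo ρ σ τ` vanish modulo the maximal ideal on
the inertia groups at `p`. -/
def WOres (ρ : GaloisRepAdic A) (p : ℕ) : Prop :=
  ∀ P : ValuationSubring Qb, P.LiesOverPrime p →
    ∀ σ ∈ P.inertiaSubgroupIn ℚ, ∀ τ ∈ P.inertiaSubgroupIn ℚ,
      ∀ v : ρ.V, wo ρ σ τ v ∈ maximalIdeal A • (⊤ : Submodule A ρ.V)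

/-- The determinant is residually nontrivial on the inertia groups at `p`. -/
def IDN (ρ : GaloisRepAdic A) (p : ℕ) : Prop :=
  ∀ P : ValuationSubring Qb, P.LiesOverPrime p →
    ∃ σ₀ ∈ P.inertiaSubgroupIn ℚ, IsUnit (LinearMap.det (ρ.ρ σ₀) - 1)

/-! ### Inertia inside decomposition -/

theorem inertia_le_decomp {P : ValuationSubring Qb} {σ : GQ}
    (hσ : σ ∈ P.inertiaSubgroupIn ℚ) : σ ∈ P.decompositionSubgroup ℚ := by
  obtain ⟨x, -, rfl⟩ := Subgroup.mem_map.mp hσ
  exact x.2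

theorem conj_mem_inertia {P : ValuationSubring Qb} {δ σ : GQ}
    (hδ : δ ∈ P.decompositionSubgroup ℚ) (hσ : σ ∈ P.inertiaSubgroupIn ℚ) :
    δ * σ * δ⁻¹ ∈ P.inertiaSubgroupIn ℚ := by
  obtain ⟨x, hx, rfl⟩ := Subgroup.mem_map.mp hσ
  refine Subgroup.mem_map.mpr ⟨(⟨δ, hδ⟩ : P.decompositionSubgroup ℚ) * x *
    (⟨δ, hδ⟩ : P.decompositionSubgroup ℚ)⁻¹, ?_, rfl⟩
  have hn : (P.inertiaSubgroup ℚ).Normal := by
    unfold ValuationSubring.inertiaSubgroup
    exact MonoidHom.normal_ker _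
  exact hn.conj_mem x hx _

/-! ### Coordinates -/

section Coord

variable {R : Type} [CommRing R] {V : Type} [AddCommGroup V] [Module R V]

theorem eq_repr_smul_add' (w : Module.Basis (Fin 2) R V) (v : V) :
    v = w.repr v 0 • w 0 + w.repr v 1 • w 1 := by
  conv_lhs => rw [← w.sum_repr v]
  rw [Fin.sum_univ_two]

theorem mem_span_iff_repr_one' (w : Module.Basis (Fin 2) R V) (v : V) :
    v ∈ Submodule.span R {w 0} ↔ w.repr v 1 = 0 := by
  constructor
  · intro h
    obtain ⟨c, rfl⟩ := Submodule.mem_span_singleton.mp h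
    rw [map_smul, Finsupp.smul_apply, w.repr_self]
    simp
  · intro h
    rw [eq_repr_smul_add' w v, h, zero_smul, add_zero]
    exact Submodule.smul_mem _ _ (Submodule.mem_span_singleton_self _)

/-- A vector with a unit coordinate is the first vector of a basis. -/
theorem exists_basis_of_isUnit_coord' (e : Module.Basis (Fin 2) R V) (v : V) (i : Fin 2)
    (hu : IsUnit (e.repr v i)) : ∃ w : Module.Basis (Fin 2) R V, w 0 = v := by
  have main : ∀ u : V, IsUnit (e.det ![v, u]) → ∃ w : Module.Basis (Fin 2) R V, w 0 = v := by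
    intro u hdet
    obtain ⟨hli, hspan⟩ := e.is_basis_iff_det.mpr hdet
    refine ⟨Module.Basis.mk hli hspan.ge, ?_⟩
    rw [Module.Basis.mk_apply]
    rfl
  fin_cases i
  · apply main (e 1)
    rw [Module.Basis.det_apply, Matrix.det_fin_two]
    simp only [Module.Basis.toMatrix_apply, Matrix.cons_val_zero, Matrix.cons_val_one]
    simpa using hu
  · apply main (e 0)
    rw [Module.Basis.det_apply, Matrix.det_fin_two]
    simp only [Module.Basis.toMatrix_apply, Matrix.cons_val_zero, Matrix.cons_val_one]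
    simpa using hu.neg

/-- The determinant of an upper triangular endomorphism in a basis indexed by `Fin 2`. -/
theorem det_eq_of_triangular (w : Module.Basis (Fin 2) R V) (f : Module.End R V) (c x d : R)
    (h0 : f (w 0) = c • w 0) (h1 : f (w 1) = x • w 0 + d • w 1) :
    LinearMap.det f = c * d := by
  rw [← LinearMap.det_toMatrix w, Matrix.det_fin_two]
  simp only [LinearMap.toMatrix_apply, h0, h1, map_add, map_smul, Finsupp.add_apply,
    Finsupp.smul_apply, w.repr_self]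
  simp

end Coord

/-! ### Ordinary implies weakly ordinary -/

/-- **Ordinary implies weakly ordinary.** -/
theorem wo_of_isOrdinaryAt {ρ : GaloisRepAdic A} {p : ℕ} (h : ρ.IsOrdinaryAt p) : WO ρ p := by
  intro P hP σ hσ τ hτ
  obtain ⟨L, ⟨b, rfl⟩, hD, hI⟩ := h P hP
  have h0 : ρ.ρ σ (b 0) ∈ Submodule.span A {b 0} :=
    hD σ (inertia_le_decomp hσ) _ (Submodule.mem_span_singleton_self _)
  obtain ⟨c, hc⟩ := Submodule.mem_span_singleton.mp h0
  obtain ⟨x, hx⟩ := Submodule.mem_span_singleton.mp (hI σ hσ (b 1))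
  have hdet : LinearMap.det (ρ.ρ σ) = c := by
    rw [det_eq_of_triangular b (ρ.ρ σ) c x 1 hc.symm (by rw [one_smul, hx]; abel), mul_one]
  refine LinearMap.ext fun v => ?_
  obtain ⟨y, hy⟩ := Submodule.mem_span_singleton.mp (hI τ hτ v)
  simp only [wo, Module.End.mul_apply, LinearMap.sub_apply, Module.End.one_apply,
    LinearMap.smul_apply, LinearMap.zero_apply]
  rw [← hy, map_smul, ← hc, hdet, smul_comm, sub_self]

/-! ### Weakly ordinary implies ordinary -/

/-- **Weakly ordinary implies ordinary**, when the determinant is residually nontrivial on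
inertia. -/
theorem isOrdinaryAt_of_wo {ρ : GaloisRepAdic A} {p : ℕ} (h : WO ρ p) (hd : IDN ρ p) :
    ρ.IsOrdinaryAt p := by
  classical
  intro P hP
  obtain ⟨σ₀, hσ₀, hu⟩ := hd P hP
  set g : Module.End A ρ.V := ρ.ρ σ₀ with hg
  set d : A := LinearMap.det g with hdd
  have hdu : IsUnit d := by
    have h1 : IsUnit g := by
      refine IsUnit.of_mul_eq_one (ρ.ρ σ₀⁻¹) ?_
      rw [hg, ← map_mul, mul_inv_cancel, map_one]
    exact h1.map (LinearMap.det : Module.End A ρ.V →* A)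
  set c : Module.Basis (Fin 2) A ρ.V := Module.finBasisOfFinrankEq A ρ.V ρ.finrank_eq with hc
  -- some coordinate of some `(g - 1) (c j)` is a unit
  have hex : ∃ j i, IsUnit (c.repr ((g - 1) (c j)) i) := by
    by_contra hcon
    push Not at hcon
    have hm : ∀ j i, c.repr ((g - 1) (c j)) i ∈ maximalIdeal A := fun j i =>
      (mem_maximalIdeal _).2 (hcon j i)
    have hdet : d = c.repr (g (c 0)) 0 * c.repr (g (c 1)) 1 -
        c.repr (g (c 1)) 0 * c.repr (g (c 0)) 1 := by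
      rw [hdd, ← LinearMap.det_toMatrix c, Matrix.det_fin_two]
      simp only [LinearMap.toMatrix_apply]
    have e00 : c.repr ((g - 1) (c 0)) 0 = c.repr (g (c 0)) 0 - 1 := by
      rw [LinearMap.sub_apply, Module.End.one_apply, map_sub, Finsupp.sub_apply, c.repr_self]
      simp
    have e01 : c.repr ((g - 1) (c 0)) 1 = c.repr (g (c 0)) 1 := by
      rw [LinearMap.sub_apply, Module.End.one_apply, map_sub, Finsupp.sub_apply, c.repr_self]
      simp
    have e10 : c.repr ((g - 1) (c 1)) 0 = c.repr (g (c 1)) 0 := by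
      rw [LinearMap.sub_apply, Module.End.one_apply, map_sub, Finsupp.sub_apply, c.repr_self]
      simp
    have e11 : c.repr ((g - 1) (c 1)) 1 = c.repr (g (c 1)) 1 - 1 := by
      rw [LinearMap.sub_apply, Module.End.one_apply, map_sub, Finsupp.sub_apply, c.repr_self]
      simp
    have h00 := hm 0 0
    have h01 := hm 0 1
    have h10 := hm 1 0
    have h11 := hm 1 1
    rw [e00] at h00
    rw [e01] at h01
    rw [e10] at h10
    rw [e11] at h11
    have hmem : d - 1 ∈ maximalIdeal A := by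
      have e : d - 1 = (c.repr (g (c 0)) 0 - 1) * c.repr (g (c 1)) 1 +
          (c.repr (g (c 1)) 1 - 1) - c.repr (g (c 1)) 0 * c.repr (g (c 0)) 1 := by
        rw [hdet]; ring
      rw [e]
      exact Ideal.sub_mem _ (Ideal.add_mem _ (Ideal.mul_mem_right _ _ h00) h11)
        (Ideal.mul_mem_right _ _ h10)
    exact (mem_maximalIdeal _).1 hmem hu
  obtain ⟨j, i, hji⟩ := hex
  obtain ⟨w, hw⟩ := exists_basis_of_isUnit_coord' c ((g - 1) (c j)) i hji
  -- the operator `g - d` kills `(ρ τ - 1) v` for `τ` in inertia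
  have hkill : ∀ τ ∈ P.inertiaSubgroupIn ℚ, ∀ v : ρ.V,
      g (ρ.ρ τ v - v) = d • (ρ.ρ τ v - v) := by
    intro τ hτ v
    have h1 := LinearMap.congr_fun (h P hP σ₀ hσ₀ τ hτ) v
    simp only [wo, Module.End.mul_apply, LinearMap.sub_apply, Module.End.one_apply,
      LinearMap.smul_apply, LinearMap.zero_apply] at h1
    exact sub_eq_zero.mp h1
  have hg0 : g (w 0) = d • w 0 := by
    rw [hw]
    exact hkill σ₀ hσ₀ (c j)
  -- the matrix of `g` in the basis `w` is upper triangular with diagonal `(d, 1)`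
  have hg1 : g (w 1) = w.repr (g (w 1)) 0 • w 0 + w.repr (g (w 1)) 1 • w 1 :=
    eq_repr_smul_add' w _
  have hy : w.repr (g (w 1)) 1 = 1 := by
    have h1 := det_eq_of_triangular w g d _ _ hg0 hg1
    have h2 : d * (w.repr (g (w 1)) 1 - 1) = 0 := by
      rw [mul_sub, mul_one, ← h1, sub_self]
    exact sub_eq_zero.mp ((hdu.mul_right_eq_zero).mp h2)
  -- the kernel of `g - d` is the line spanned by `w 0`
  have hker : ∀ x : ρ.V, g x = d • x → x ∈ Submodule.span A {w 0} := by
    intro x hx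
    rw [mem_span_iff_repr_one']
    have h1 : w.repr (g x) 1 = w.repr x 1 := by
      conv_lhs => rw [eq_repr_smul_add' w x]
      rw [map_add, map_smul, map_smul, hg0, map_add, map_smul, map_smul, map_smul,
        Finsupp.add_apply, Finsupp.smul_apply, Finsupp.smul_apply, Finsupp.smul_apply, hy,
        w.repr_self]
      simp
    have h2 : w.repr (g x) 1 = d * w.repr x 1 := by
      rw [hx, map_smul, Finsupp.smul_apply, smul_eq_mul]
    have h3 : (d - 1) * w.repr x 1 = 0 := by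
      rw [sub_mul, one_mul, ← h2, h1, sub_self]
    exact (hu.mul_right_eq_zero).mp h3
  refine ⟨Submodule.span A {w 0}, ⟨w, rfl⟩, ?_, ?_⟩
  · intro δ hδ v hv
    obtain ⟨a, rfl⟩ := Submodule.mem_span_singleton.mp hv
    rw [map_smul]
    refine Submodule.smul_mem _ _ (hker _ ?_)
    have h1 : ρ.ρ δ (w 0) = ρ.ρ (δ * σ₀ * δ⁻¹) (ρ.ρ δ (c j)) - ρ.ρ δ (c j) := by
      have h2 : ρ.ρ (δ * σ₀ * δ⁻¹) (ρ.ρ δ (c j)) = ρ.ρ δ (g (c j)) := by
        rw [← Module.End.mul_apply, ← map_mul, inv_mul_cancel_right, map_mul,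
          Module.End.mul_apply]
      rw [h2, hw, LinearMap.sub_apply, Module.End.one_apply, map_sub]
    rw [h1]
    exact hkill _ (conj_mem_inertia hδ hσ₀) _
  · intro τ hτ v
    exact hker _ (hkill τ hτ v)

end Fermat.Agent.S33
end MergeWrap_S33_Glue

section MergeWrap_S33_BaseChange -- from S33/BaseChange.lean

/-!
# S33, the glue, part 2: weak ordinarity under base change, equivalence, reduction
(owner: helper11)

`WO`, `WOres`, `IDN` of `S33/Glue.lean` under `GaloisRepAdic.baseChangeAlong`, under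
`GaloisRepAdic.Equiv`, and their relation with the residual representation:

* `wo_baseChangeAlong`, `wores_baseChangeAlong`, `idn_baseChangeAlong_iff`;
* `wo_of_baseChangeAlong_family` (descent along a jointly injective family);
* `wo_of_isEquiv`, `wores_of_isEquiv`, `idn_of_isEquiv`;
* `wores_iff_wo_residual`, `idn_iff_idn_residual`;
* `residual_isOrdinaryAt_iff_wores` : residual ordinarity (Prelude form) is `WOres`.
-/

set_option autoImplicit false
set_option linter.style.haveILetI false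
set_option linter.unusedSectionVars false

namespace Fermat.Agent.S33

open TensorProduct IsLocalRing Fermat.Agent.TraceRigidity

local notation "GQ" => (AlgebraicClosure ℚ ≃ₐ[ℚ] AlgebraicClosure ℚ)
local notation "Qb" => (AlgebraicClosure ℚ)

/-! ### Endomorphisms -/

section EndLevel

variable {A : Type} [CommRing A] {V : Type} [AddCommGroup V] [Module A V]

/-- The weak ordinarity operator of two endomorphisms. -/
noncomputable def woEnd (f g : Module.End A V) : Module.End A V :=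
  (f - LinearMap.det f • (1 : Module.End A V)) * (g - 1)

theorem wo_eq_woEnd {A : Type} [CommRing A] [IsLocalRing A] (ρ : GaloisRepAdic A) (σ τ : GQ) :
    wo ρ σ τ = woEnd (ρ.ρ σ) (ρ.ρ τ) := rfl

/-- An endomorphism with values in `I • ⊤`, in coordinates. -/
theorem forall_mem_smul_top_iff (I : Ideal A) (b : Module.Basis (Fin 2) A V)
    (f : Module.End A V) :
    (∀ v, f v ∈ I • (⊤ : Submodule A V)) ↔ ∀ i j, b.repr (f (b j)) i ∈ I := by
  constructor
  · intro h i j
    exact repr_mem_of_mem_smul_top b I (h (b j)) i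
  · intro h v
    have hb : ∀ j, f (b j) ∈ I • (⊤ : Submodule A V) := by
      intro j
      rw [eq_repr_smul_add' b (f (b j))]
      exact Submodule.add_mem _ (Submodule.smul_mem_smul (h 0 j) Submodule.mem_top)
        (Submodule.smul_mem_smul (h 1 j) Submodule.mem_top)
    rw [eq_repr_smul_add' b v, map_add, map_smul, map_smul]
    exact Submodule.add_mem _ (Submodule.smul_mem _ _ (hb 0)) (Submodule.smul_mem _ _ (hb 1))

theorem eq_zero_iff_repr (b : Module.Basis (Fin 2) A V) (f : Module.End A V) :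
    f = 0 ↔ ∀ i j, b.repr (f (b j)) i = 0 := by
  constructor
  · rintro rfl i j
    simp
  · intro h
    apply b.ext
    intro j
    apply b.repr.injective
    ext i
    rw [h i j]
    simp

variable [Module.Free A V] [Module.Finite A V]

theorem woEnd_baseChange (B : Type) [CommRing B] [Algebra A B] (f g : Module.End A V) :
    woEnd (f.baseChange B) (g.baseChange B) = (woEnd f g).baseChange B := by
  unfold woEnd
  rw [LinearMap.det_baseChange, LinearMap.baseChange_mul, LinearMap.baseChange_sub,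
    LinearMap.baseChange_sub, LinearMap.baseChange_smul, LinearMap.baseChange_one,
    algebraMap_smul]

/-- Coordinates of a base change. -/
theorem repr_baseChange (B : Type) [CommRing B] [Algebra A B] (b : Module.Basis (Fin 2) A V)
    (f : Module.End A V) (i j : Fin 2) :
    (Algebra.TensorProduct.basis B b).repr
      ((f.baseChange B) ((Algebra.TensorProduct.basis B b) j)) i =
      algebraMap A B (b.repr (f (b j)) i) := by
  have h := LinearMap.toMatrix_baseChange (A := B) f b b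
  have h2 := congrFun (congrFun h i) j
  rw [LinearMap.toMatrix_apply, Matrix.map_apply, LinearMap.toMatrix_apply] at h2
  exact h2

end EndLevel

/-! ### Base change of representations -/

section BaseChange

variable {A B : Type} [CommRing A] [IsLocalRing A] [CommRing B] [IsLocalRing B]

theorem wo_baseChangeAlong_eq (ψ : A →+* B) (hψ : IsLocalHom ψ) (ρ : GaloisRepAdic A)
    (b : Module.Basis (Fin 2) A ρ.V) (σ τ : GQ) :
    letI : Algebra A B := ψ.toAlgebra
    ∀ i j, (Algebra.TensorProduct.basis B b).repr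
      (wo (ρ.baseChangeAlong ψ hψ) σ τ ((Algebra.TensorProduct.basis B b) j)) i =
      ψ (b.repr (wo ρ σ τ (b j)) i) := by
  letI : Algebra A B := ψ.toAlgebra
  intro i j
  have h1 : wo (ρ.baseChangeAlong ψ hψ) σ τ = (wo ρ σ τ).baseChange B := by
    rw [wo_eq_woEnd, wo_eq_woEnd]
    exact woEnd_baseChange B (ρ.ρ σ) (ρ.ρ τ)
  rw [h1]
  exact repr_baseChange B b _ i j

/-- Weak ordinarity passes to base changes. -/
theorem wo_baseChangeAlong (ψ : A →+* B) (hψ : IsLocalHom ψ) {ρ : GaloisRepAdic A} {p : ℕ}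
    (h : WO ρ p) : WO (ρ.baseChangeAlong ψ hψ) p := by
  letI : Algebra A B := ψ.toAlgebra
  intro P hP σ hσ τ hτ
  set b : Module.Basis (Fin 2) A ρ.V := Module.finBasisOfFinrankEq A ρ.V ρ.finrank_eq
  refine (eq_zero_iff_repr (Algebra.TensorProduct.basis B b)
    (wo (ρ.baseChangeAlong ψ hψ) σ τ)).2 fun i j => ?_
  refine (wo_baseChangeAlong_eq ψ hψ ρ b σ τ i j).trans ?_
  rw [h P hP σ hσ τ hτ]
  simp

/-- Residual weak ordinarity passes to base changes. -/
theorem wores_baseChangeAlong (ψ : A →+* B) (hψ : IsLocalHom ψ) {ρ : GaloisRepAdic A} {p : ℕ}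
    (h : WOres ρ p) : WOres (ρ.baseChangeAlong ψ hψ) p := by
  letI : Algebra A B := ψ.toAlgebra
  intro P hP σ hσ τ hτ
  set b : Module.Basis (Fin 2) A ρ.V := Module.finBasisOfFinrankEq A ρ.V ρ.finrank_eq
  refine (forall_mem_smul_top_iff (maximalIdeal B) (Algebra.TensorProduct.basis B b)
    (wo (ρ.baseChangeAlong ψ hψ) σ τ)).2 fun i j => ?_
  have e := wo_baseChangeAlong_eq ψ hψ ρ b σ τ i j
  have h1 := (forall_mem_smul_top_iff _ b _).1 (h P hP σ hσ τ hτ) i j
  have h2 : ψ (b.repr (wo ρ σ τ (b j)) i) ∈ maximalIdeal B := by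
    rw [mem_maximalIdeal, mem_nonunits_iff] at h1 ⊢
    exact fun hu => h1 (isUnit_of_map_unit ψ _ hu)
  exact Eq.subst (motive := fun x => x ∈ maximalIdeal B) e.symm h2

/-- Weak ordinarity descends along a jointly injective family of base changes. -/
theorem wo_of_baseChangeAlong_family {ι : Type*} {O : ι → Type} [∀ i, CommRing (O i)]
    [∀ i, IsLocalRing (O i)] (ψ : ∀ i, A →+* O i) (hψ : ∀ i, IsLocalHom (ψ i))
    (hinj : ∀ x : A, (∀ i, ψ i x = 0) → x = 0) {ρ : GaloisRepAdic A} {p : ℕ}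
    (h : ∀ i, WO (ρ.baseChangeAlong (ψ i) (hψ i)) p) : WO ρ p := by
  intro P hP σ hσ τ hτ
  set b : Module.Basis (Fin 2) A ρ.V := Module.finBasisOfFinrankEq A ρ.V ρ.finrank_eq
  rw [eq_zero_iff_repr b]
  intro i j
  apply hinj
  intro k
  refine (wo_baseChangeAlong_eq (ψ k) (hψ k) ρ b σ τ i j).symm.trans ?_
  have h0 : wo (ρ.baseChangeAlong (ψ k) (hψ k)) σ τ = 0 := h k P hP σ hσ τ hτ
  letI : Algebra A (O k) := (ψ k).toAlgebra
  have h1 := (eq_zero_iff_repr (Algebra.TensorProduct.basis (O k) b)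
    (wo (ρ.baseChangeAlong (ψ k) (hψ k)) σ τ)).1 h0 i j
  exact h1

theorem det_baseChangeAlong (ψ : A →+* B) (hψ : IsLocalHom ψ) (ρ : GaloisRepAdic A) (σ : GQ) :
    LinearMap.det ((ρ.baseChangeAlong ψ hψ).ρ σ) = ψ (LinearMap.det (ρ.ρ σ)) := by
  letI : Algebra A B := ψ.toAlgebra
  exact LinearMap.det_baseChange (ρ.ρ σ)

/-- Residual nontriviality of the determinant on inertia and base change. -/
theorem idn_baseChangeAlong_iff (ψ : A →+* B) (hψ : IsLocalHom ψ) (ρ : GaloisRepAdic A)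
    (p : ℕ) : IDN (ρ.baseChangeAlong ψ hψ) p ↔ IDN ρ p := by
  have key : ∀ σ : GQ, IsUnit (LinearMap.det ((ρ.baseChangeAlong ψ hψ).ρ σ) - 1) ↔
      IsUnit (LinearMap.det (ρ.ρ σ) - 1) := by
    intro σ
    rw [det_baseChangeAlong, ← map_one ψ, ← map_sub]
    exact ⟨fun hu => isUnit_of_map_unit ψ _ hu, fun hu => hu.map ψ⟩
  constructor
  · intro h P hP
    obtain ⟨σ₀, hσ₀, hu⟩ := h P hP
    exact ⟨σ₀, hσ₀, (key σ₀).1 hu⟩
  · intro h P hP
    obtain ⟨σ₀, hσ₀, hu⟩ := h P hP
    exact ⟨σ₀, hσ₀, (key σ₀).2 hu⟩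

end BaseChange

/-! ### Equivalence -/

section Equivalence

variable {A : Type} [CommRing A] [IsLocalRing A]

theorem rho_eq_of_equiv {ρ₁ ρ₂ : GaloisRepAdic A} (e : ρ₁.Equiv ρ₂) (σ : GQ) :
    ρ₂.ρ σ = e.toLinearEquiv.conj (ρ₁.ρ σ) := by
  refine LinearMap.ext fun y => ?_
  obtain ⟨x, rfl⟩ := e.toLinearEquiv.surjective y
  rw [LinearEquiv.conj_apply, LinearMap.comp_apply, LinearMap.comp_apply,
    LinearEquiv.coe_coe, LinearEquiv.coe_coe, LinearEquiv.symm_apply_apply, e.map_apply]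

theorem det_eq_of_equiv {ρ₁ ρ₂ : GaloisRepAdic A} (e : ρ₁.Equiv ρ₂) (σ : GQ) :
    LinearMap.det (ρ₂.ρ σ) = LinearMap.det (ρ₁.ρ σ) := by
  rw [rho_eq_of_equiv e σ, LinearEquiv.conj_apply, LinearMap.comp_assoc, LinearMap.det_conj]

theorem wo_apply_of_equiv {ρ₁ ρ₂ : GaloisRepAdic A} (e : ρ₁.Equiv ρ₂) (σ τ : GQ) (x : ρ₁.V) :
    wo ρ₂ σ τ (e.toLinearEquiv x) = e.toLinearEquiv (wo ρ₁ σ τ x) := by
  simp only [wo, Module.End.mul_apply, LinearMap.sub_apply, Module.End.one_apply,
    LinearMap.smul_apply, det_eq_of_equiv e σ, map_sub, map_smul, e.map_apply]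

theorem wo_of_isEquiv {ρ₁ ρ₂ : GaloisRepAdic A} (e : ρ₁.IsEquiv ρ₂) {p : ℕ} (h : WO ρ₁ p) :
    WO ρ₂ p := by
  obtain ⟨e⟩ := e
  intro P hP σ hσ τ hτ
  refine LinearMap.ext fun y => ?_
  obtain ⟨x, rfl⟩ := e.toLinearEquiv.surjective y
  rw [wo_apply_of_equiv, h P hP σ hσ τ hτ]
  simp

theorem wores_of_isEquiv {ρ₁ ρ₂ : GaloisRepAdic A} (e : ρ₁.IsEquiv ρ₂) {p : ℕ}
    (h : WOres ρ₁ p) : WOres ρ₂ p := by
  obtain ⟨e⟩ := e
  intro P hP σ hσ τ hτ y
  obtain ⟨x, rfl⟩ := e.toLinearEquiv.surjective y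
  rw [wo_apply_of_equiv]
  have h1 := h P hP σ hσ τ hτ x
  refine Submodule.smul_induction_on (p := fun z => e.toLinearEquiv z ∈
    maximalIdeal A • (⊤ : Submodule A ρ₂.V)) h1 ?_ ?_
  · intro a ha v _
    rw [map_smul]
    exact Submodule.smul_mem_smul ha Submodule.mem_top
  · intro x y hx hy
    rw [map_add]
    exact Submodule.add_mem _ hx hy

theorem idn_of_isEquiv {ρ₁ ρ₂ : GaloisRepAdic A} (e : ρ₁.IsEquiv ρ₂) {p : ℕ}
    (h : IDN ρ₁ p) : IDN ρ₂ p := by
  obtain ⟨e⟩ := e
  intro P hP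
  obtain ⟨σ₀, hσ₀, hu⟩ := h P hP
  exact ⟨σ₀, hσ₀, by rw [det_eq_of_equiv e]; exact hu⟩

end Equivalence

/-! ### The residual representation -/

section Residual

variable {A : Type} [CommRing A] [IsLocalRing A]

theorem wo_residual_eq (ρ : GaloisRepAdic A) (b : Module.Basis (Fin 2) A ρ.V) (σ τ : GQ)
    (i j : Fin 2) :
    (Algebra.TensorProduct.basis (ResidueField A) b).repr
      (wo (GaloisRepAdic.ofResidualGaloisRep ρ.residual) σ τ
        ((Algebra.TensorProduct.basis (ResidueField A) b) j)) i =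
      residue A (b.repr (wo ρ σ τ (b j)) i) := by
  have h1 : wo (GaloisRepAdic.ofResidualGaloisRep ρ.residual) σ τ =
      (wo ρ σ τ).baseChange (ResidueField A) := by
    rw [wo_eq_woEnd, wo_eq_woEnd]
    exact woEnd_baseChange (ResidueField A) (ρ.ρ σ) (ρ.ρ τ)
  rw [h1]
  exact repr_baseChange (ResidueField A) b _ i j

/-- Residual weak ordinarity is weak ordinarity of the residual representation. -/
theorem wores_iff_wo_residual (ρ : GaloisRepAdic A) (p : ℕ) :
    WOres ρ p ↔ WO (GaloisRepAdic.ofResidualGaloisRep ρ.residual) p := by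
  set b : Module.Basis (Fin 2) A ρ.V := Module.finBasisOfFinrankEq A ρ.V ρ.finrank_eq
  have key : ∀ σ τ : GQ, (∀ v : ρ.V, wo ρ σ τ v ∈ maximalIdeal A • (⊤ : Submodule A ρ.V)) ↔
      wo (GaloisRepAdic.ofResidualGaloisRep ρ.residual) σ τ = 0 := by
    intro σ τ
    have hL := forall_mem_smul_top_iff (maximalIdeal A) b (wo ρ σ τ)
    have hR := eq_zero_iff_repr (Algebra.TensorProduct.basis (ResidueField A) b)
      (wo (GaloisRepAdic.ofResidualGaloisRep ρ.residual) σ τ)
    refine hL.trans (Iff.trans ?_ hR.symm)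
    constructor
    · intro h i j
      refine (wo_residual_eq ρ b σ τ i j).trans ?_
      rw [residue_eq_zero_iff]
      exact h i j
    · intro h i j
      have h1 := (wo_residual_eq ρ b σ τ i j).symm.trans (h i j)
      rw [residue_eq_zero_iff] at h1
      exact h1
  constructor
  · intro h P hP σ hσ τ hτ
    exact (key σ τ).1 (h P hP σ hσ τ hτ)
  · intro h P hP σ hσ τ hτ
    exact (key σ τ).2 (h P hP σ hσ τ hτ)

theorem idn_iff_idn_residual (ρ : GaloisRepAdic A) (p : ℕ) :
    IDN ρ p ↔ IDN (GaloisRepAdic.ofResidualGaloisRep ρ.residual) p := by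
  have key : ∀ σ : GQ, IsUnit (LinearMap.det ((GaloisRepAdic.ofResidualGaloisRep
      ρ.residual).ρ σ) - 1) ↔ IsUnit (LinearMap.det (ρ.ρ σ) - 1) := by
    intro σ
    have h1 : LinearMap.det ((GaloisRepAdic.ofResidualGaloisRep ρ.residual).ρ σ) =
        residue A (LinearMap.det (ρ.ρ σ)) := LinearMap.det_baseChange (ρ.ρ σ)
    rw [h1, ← map_one (residue A), ← map_sub]
    exact ⟨fun hu => isUnit_of_map_unit (residue A) _ hu, fun hu => hu.map (residue A)⟩
  constructor
  · intro h P hP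
    obtain ⟨σ₀, hσ₀, hu⟩ := h P hP
    exact ⟨σ₀, hσ₀, (key σ₀).2 hu⟩
  · intro h P hP
    obtain ⟨σ₀, hσ₀, hu⟩ := h P hP
    exact ⟨σ₀, hσ₀, (key σ₀).1 hu⟩

/-- **Residual ordinarity** (Prelude form) **is residual weak ordinarity.** -/
theorem residual_isOrdinaryAt_iff_wores (ρ : GaloisRepAdic A) (p : ℕ) (hd : IDN ρ p) :
    (GaloisRepAdic.ofResidualGaloisRep ρ.residual).IsOrdinaryAt p ↔ WOres ρ p := by
  rw [wores_iff_wo_residual]
  exact ⟨wo_of_isOrdinaryAt, fun h => isOrdinaryAt_of_wo h ((idn_iff_idn_residual ρ p).1 hd)⟩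

/-- **Ordinarity is weak ordinarity**, when the determinant is residually nontrivial on
inertia. -/
theorem isOrdinaryAt_iff_wo (ρ : GaloisRepAdic A) (p : ℕ) (hd : IDN ρ p) :
    ρ.IsOrdinaryAt p ↔ WO ρ p :=
  ⟨wo_of_isOrdinaryAt, fun h => isOrdinaryAt_of_wo h hd⟩

end Residual

end Fermat.Agent.S33
end MergeWrap_S33_BaseChange

section MergeWrap_S33_InertiaDet -- from S33/InertiaDet.lean

/-!
# S33, the glue, part 3: the determinant is residually nontrivial on inertia at `p`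
(owner: helper11)

`idn_of_det_frob`: let `ρ : GaloisRepAdic A`, `p` an odd prime in the maximal ideal of `A`, and
assume `det ρ(Frob_ℓ) = ℓ` for the Frobenius elements at the primes `ℓ` outside a finite set.
Then for every place `P ∣ p` of `ℚ̄` there is `σ₀` in the inertia group of `P` with
`det ρ(σ₀) - 1` invertible (`IDN ρ p`).  [`σ₀` acts on `μ_p` by inversion; by Frobenius density
`det ρ(σ₀) ≡ ℓ ^ j ≡ -1` modulo the maximal ideal.]
-/

set_option autoImplicit false
set_option linter.style.haveILetI false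

namespace Fermat.Agent.S33

open IsLocalRing Fermat.Agent.F3 Fermat.Agent.S31 Fermat.Agent.S34 Fermat.Agent.Cyclo

variable {A : Type} [CommRing A] [IsLocalRing A]

/-- `2` is invertible in a local ring whose maximal ideal contains an odd prime. -/
theorem isUnit_two_of_odd {p : ℕ} (hp : p.Prime) (hp2 : p ≠ 2)
    (hpA : (p : A) ∈ maximalIdeal A) : IsUnit (2 : A) := by
  by_contra h2
  have h2m : (2 : A) ∈ maximalIdeal A := (mem_maximalIdeal _).2 h2
  obtain ⟨m, hm⟩ := hp.odd_of_ne_two hp2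
  have h1 : (1 : A) = (p : A) - 2 * (m : A) := by
    rw [hm]; push_cast; ring
  have : (1 : A) ∈ maximalIdeal A := by
    rw [h1]
    exact Ideal.sub_mem _ hpA (Ideal.mul_mem_right _ _ h2m)
  exact (mem_maximalIdeal _).1 this isUnit_one

/-- **The determinant is residually nontrivial on inertia at `p`.** -/
theorem idn_of_det_frob (ρ : GaloisRepAdic A) {p : ℕ} (hp : p.Prime) (hp2 : p ≠ 2)
    (hpA : (p : A) ∈ maximalIdeal A) (S : Finset ℕ)
    (hdet : ∀ ℓ : ℕ, ℓ.Prime → ℓ ∉ S →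
      ∀ A' : ValuationSubring (AlgebraicClosure ℚ), A'.LiesOverPrime ℓ →
        ∀ σ : AlgebraicClosure ℚ ≃ₐ[ℚ] AlgebraicClosure ℚ, A'.IsFrobeniusAt σ ℓ →
          LinearMap.det (ρ.ρ σ) = (ℓ : A)) :
    IDN ρ p := by
  classical
  haveI : Fact p.Prime := ⟨hp⟩
  haveI : NeZero p := ⟨hp.ne_zero⟩
  intro P hP
  obtain ⟨σ₀, hσ₀, hinv⟩ := Fermat.Agent.S59.SOArith.exists_inertia_inv_on_roots p P hP
  refine ⟨σ₀, hσ₀, ?_⟩
  -- the level
  obtain ⟨L₁, hL₁fd, hL₁n, hL₁⟩ := exists_normal_level ρ 1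
  obtain ⟨L, hLfd, hLn, hL₁L, hcL⟩ := exists_normal_sup 1 (fun _ => cycloField p)
    (fun _ => inferInstance) (fun _ => inferInstance) L₁ hL₁fd hL₁n
  obtain ⟨ℓ, A', τ, j, hℓ, hℓS, hA', hτ, hτs⟩ :=
    exists_frob_pow frobDensityLite L hLfd hLn σ₀ (insert p S)
  have hℓp : ℓ ≠ p := fun h => hℓS (h ▸ Finset.mem_insert_self _ _)
  have hℓS' : ℓ ∉ S := fun h => hℓS (Finset.mem_insert_of_mem h)
  -- the determinant of `ρ (τ ^ j)`
  have hdτ : LinearMap.det (ρ.ρ (τ ^ j)) = (ℓ : A) ^ j := by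
    rw [map_pow, map_pow, hdet ℓ hℓ hℓS' A' hA' τ hτ]
  have hcong : LinearMap.det (ρ.ρ (τ ^ j)) - LinearMap.det (ρ.ρ σ₀) ∈ maximalIdeal A := by
    have := det_sub_mem_of_agree ρ 1 L
      (fun σ' hσ' => hL₁ σ' fun x hx => hσ' x (hL₁L hx)) σ₀ (τ ^ j) hτs
    rwa [pow_one] at this
  -- the cyclotomic character
  have hχ1 : ((modChar p (τ ^ j) : (ZMod p)ˣ) : ZMod p) = ((ℓ : ZMod p)) ^ j := by
    rw [map_pow, Units.val_pow_eq_pow_val,
      modChar_frobenius p hℓ (fun h => hℓp ((Nat.prime_dvd_prime_iff_eq hℓ hp).mp h)) A' hA' τ hτ]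
  have hχ2 : modChar p (τ ^ j) = modChar p σ₀ := by
    have h1 : modChar p (σ₀⁻¹ * τ ^ j) = 1 := by
      apply modChar_eq_one_of_fix_cycloField
      intro x hx
      rw [AlgEquiv.mul_apply, hτs x (hcL 0 hx)]
      exact σ₀.symm_apply_apply x
    rw [map_mul, map_inv, inv_mul_eq_one] at h1
    exact h1.symm
  have hχ3 : ((modChar p σ₀ : (ZMod p)ˣ) : ZMod p) = -1 := by
    apply modChar_unique
    intro t ht
    rw [hinv t ht]
    have hdv : p ∣ ((-1 : ZMod p)).val + 1 := by
      rw [← ZMod.natCast_eq_zero_iff]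
      push_cast
      rw [ZMod.natCast_zmod_val]
      ring
    obtain ⟨c, hc⟩ := hdv
    apply inv_eq_of_mul_eq_one_right
    rw [← pow_succ', hc, pow_mul, ht, one_pow]
  have hdvd : p ∣ ℓ ^ j + 1 := by
    rw [← ZMod.natCast_eq_zero_iff]
    push_cast
    rw [← hχ1, hχ2, hχ3]
    ring
  have hmem : (ℓ : A) ^ j + 1 ∈ maximalIdeal A := by
    obtain ⟨c, hc⟩ := hdvd
    have : (ℓ : A) ^ j + 1 = (p : A) * (c : A) := by
      have := congrArg (Nat.cast : ℕ → A) hc
      push_cast at this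
      exact this
    rw [this]
    exact Ideal.mul_mem_right _ _ hpA
  -- conclusion
  have h2 := isUnit_two_of_odd (A := A) hp hp2 hpA
  by_contra hcon0
  have hcon : LinearMap.det (ρ.ρ σ₀) - 1 ∈ maximalIdeal A := (mem_maximalIdeal _).2 hcon0
  have : (2 : A) ∈ maximalIdeal A := by
    have e : (2 : A) = ((ℓ : A) ^ j + 1) -
        (LinearMap.det (ρ.ρ (τ ^ j)) - LinearMap.det (ρ.ρ σ₀)) - (LinearMap.det (ρ.ρ σ₀) - 1) := by
      rw [hdτ]; ring
    rw [e]
    exact Ideal.sub_mem _ (Ideal.sub_mem _ hmem hcong) hcon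
  exact (mem_maximalIdeal _).1 this h2

end Fermat.Agent.S33
end MergeWrap_S33_InertiaDet

section MergeWrap_S33_Reduction -- from S33/Reduction.lean

/-!
# S33 from a statement about the `p`-adic representations of eigen-systems
(owner: helper11)

`OrdinaryPoints p N S` (the target of the geometric suppliers): every point `χ : 𝕋 → 𝒪'` of the
Hecke algebra `𝕋 = heckeAlgebra N 2 S` in a complete discrete valuation ring `𝒪'` of
characteristic zero with finite residue field of characteristic `p` has an attached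
representation `ρ` over a discrete valuation ring `𝒪''` (local extension of `𝒪'`), with the
Frobenius characteristic polynomials `X² - χ(T_ℓ) X + ℓ`, such that `ρ` is ordinary at `p` as
soon as its residual representation is.

* `wo_of_ordinaryPoints`: then EVERY representation over `𝒪'` with these Frobenius characteristic
  polynomials which is residually absolutely irreducible (in the form: four matrices of `ρ` form a
  basis of `M₂(𝒪')`) and residually (weakly) ordinary is (weakly) ordinary.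
* `isOrdinaryAt_of_ordinaryPoints`: the frozen S33 for a datum `H` over `T`, given
  `OrdinaryPoints p N S` and a jointly injective family of local homomorphisms from `T` to
  complete discrete valuation rings (`LocalDVRPoint`; these exist since `T` is reduced and
  finite free over `𝒪`: helper62, `S32/Points.lean`).
-/

set_option autoImplicit false
set_option linter.style.haveILetI false

namespace Fermat.Agent.S33

open Polynomial TensorProduct IsLocalRing Fermat.Agent.F3 Fermat.Agent.TraceRigidity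
  Fermat.Agent.S34

local notation "GQ'" => (AlgebraicClosure ℚ ≃ₐ[ℚ] AlgebraicClosure ℚ)

/-- Every `p`-adic point of the Hecke algebra of level `N` carries a representation with the
right Frobenius characteristic polynomials which is ordinary at `p` if it is residually
ordinary at `p`. -/
def OrdinaryPoints (p N : ℕ) [NeZero N] (S : Finset ℕ) : Prop :=
  ∀ (𝒪' : Type) [CommRing 𝒪'] [IsDomain 𝒪'] [IsDiscreteValuationRing 𝒪']
    [IsAdicComplete (IsLocalRing.maximalIdeal 𝒪') 𝒪'] [Finite (IsLocalRing.ResidueField 𝒪')]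
    [CharZero 𝒪'] (_hp𝒪' : (p : 𝒪') ∈ IsLocalRing.maximalIdeal 𝒪')
    (χ : CuspForm.heckeAlgebra N 2 (↑S : Set ℕ) →+* 𝒪'),
    ∃ (𝒪'' : Type) (_ : CommRing 𝒪'') (_ : IsDomain 𝒪'') (_ : IsDiscreteValuationRing 𝒪'')
      (_ : Algebra 𝒪' 𝒪''),
    Function.Injective (algebraMap 𝒪' 𝒪'') ∧ IsLocalHom (algebraMap 𝒪' 𝒪'') ∧
    ∃ ρ : GaloisRepAdic 𝒪'',
      (∀ (ℓ : ℕ) (hℓ : ℓ.Prime) (hℓN : ¬ ℓ ∣ N) (hℓS : ℓ ∉ (↑S : Set ℕ)),
        ∀ A : ValuationSubring (AlgebraicClosure ℚ), A.LiesOverPrime ℓ →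
          ∀ σ : AlgebraicClosure ℚ ≃ₐ[ℚ] AlgebraicClosure ℚ, A.IsFrobeniusAt σ ℓ →
            LinearMap.charpoly (ρ.ρ σ) =
              X ^ 2 - C (algebraMap 𝒪' 𝒪'' (χ (CuspForm.heckeAlgebra.T hℓ hℓN hℓS))) * X
                + C ((ℓ : 𝒪''))) ∧
      ((GaloisRepAdic.ofResidualGaloisRep ρ.residual).IsOrdinaryAt p → ρ.IsOrdinaryAt p)

variable {p : ℕ} {N : ℕ} [NeZero N] {S : Finset ℕ}

/-- The determinant at Frobenius from the characteristic polynomial. -/
theorem det_frob_of_charpoly {B : Type} [CommRing B] [IsLocalRing B]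
    (φ : CuspForm.heckeAlgebra N 2 (↑S : Set ℕ) →+* B) (ρ : GaloisRepAdic B)
    (hNS : ∀ q : ℕ, q.Prime → q ∣ N → q ∈ S)
    (hρ : ∀ (ℓ : ℕ) (hℓ : ℓ.Prime) (hℓN : ¬ ℓ ∣ N) (hℓS : ℓ ∉ (↑S : Set ℕ)),
      ∀ A' : ValuationSubring (AlgebraicClosure ℚ), A'.LiesOverPrime ℓ →
        ∀ σ : GQ', A'.IsFrobeniusAt σ ℓ →
          LinearMap.charpoly (ρ.ρ σ) =
            X ^ 2 - C (φ (CuspForm.heckeAlgebra.T hℓ hℓN hℓS)) * X + C ((ℓ : B))) :
    ∀ ℓ : ℕ, ℓ.Prime → ℓ ∉ S →
      ∀ A' : ValuationSubring (AlgebraicClosure ℚ), A'.LiesOverPrime ℓ →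
        ∀ σ : GQ', A'.IsFrobeniusAt σ ℓ → LinearMap.det (ρ.ρ σ) = (ℓ : B) := by
  intro ℓ hℓ hℓS A' hA' σ hσ
  have hℓN : ¬ ℓ ∣ N := fun h => hℓS (hNS ℓ hℓ h)
  have hℓS' : ℓ ∉ (↑S : Set ℕ) := fun h => hℓS (Finset.mem_coe.1 h)
  exact (trace_det_of_charpoly_eq ρ.finrank_eq _ _ _ (hρ ℓ hℓ hℓN hℓS' A' hA' σ hσ)).2

/-- **From the points to all representations**: given `OrdinaryPoints`, a representation over
`𝒪'` with the Frobenius characteristic polynomials of a point `χ`, four of whose matrices form a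
basis of `M₂(𝒪')`, is weakly ordinary at `p` if it is residually weakly ordinary. -/
theorem wo_of_ordinaryPoints (hOP : OrdinaryPoints p N S) (hp : p.Prime) (hp2 : p ≠ 2)
    (hNS : ∀ q : ℕ, q.Prime → q ∣ N → q ∈ S)
    (𝒪' : Type) [CommRing 𝒪'] [IsDomain 𝒪'] [IsDiscreteValuationRing 𝒪']
    [IsAdicComplete (IsLocalRing.maximalIdeal 𝒪') 𝒪'] [Finite (IsLocalRing.ResidueField 𝒪')]
    [CharZero 𝒪'] (hp𝒪' : (p : 𝒪') ∈ IsLocalRing.maximalIdeal 𝒪')
    (χ : CuspForm.heckeAlgebra N 2 (↑S : Set ℕ) →+* 𝒪') (ρ₀ : GaloisRepAdic 𝒪')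
    (hρ₀ : ∀ (ℓ : ℕ) (hℓ : ℓ.Prime) (hℓN : ¬ ℓ ∣ N) (hℓS : ℓ ∉ (↑S : Set ℕ)),
      ∀ A' : ValuationSubring (AlgebraicClosure ℚ), A'.LiesOverPrime ℓ →
        ∀ σ : GQ', A'.IsFrobeniusAt σ ℓ →
          LinearMap.charpoly (ρ₀.ρ σ) =
            X ^ 2 - C (χ (CuspForm.heckeAlgebra.T hℓ hℓN hℓS)) * X + C ((ℓ : 𝒪')))
    (b : Module.Basis (Fin 2) 𝒪' ρ₀.V) (g : Fin 2 × Fin 2 → GQ')
    (hg : IsUnit (coordMat (fun σ => LinearMap.toMatrix b b (ρ₀.ρ σ)) g).det)
    (hres : WOres ρ₀ p) : WO ρ₀ p := by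
  classical
  obtain ⟨𝒪'', i1, i2, i3, i4, hinj, hloc, ρ'', hρ'', himp⟩ := hOP 𝒪' hp𝒪' χ
  set ψ : 𝒪' →+* 𝒪'' := algebraMap 𝒪' 𝒪'' with hψ
  set ρ₁ : GaloisRepAdic 𝒪'' := ρ₀.baseChangeAlong ψ hloc with hρ₁
  letI : Algebra 𝒪' 𝒪'' := ψ.toAlgebra
  set b₁ : Module.Basis (Fin 2) 𝒪'' ρ₁.V := Algebra.TensorProduct.basis 𝒪'' b with hb₁
  have hmat : ∀ τ, LinearMap.toMatrix b₁ b₁ (ρ₁.ρ τ) =
      (LinearMap.toMatrix b b (ρ₀.ρ τ)).map ψ := fun τ =>
    LinearMap.toMatrix_baseChange 𝒪'' (ρ₀.ρ τ) b b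
  have hg₁ : IsUnit (coordMat (fun τ => LinearMap.toMatrix b₁ b₁ (ρ₁.ρ τ)) g).det := by
    have h1 : coordMat (fun τ => LinearMap.toMatrix b₁ b₁ (ρ₁.ρ τ)) g =
        ψ.mapMatrix (coordMat (fun τ => LinearMap.toMatrix b b (ρ₀.ρ τ)) g) := by
      ext ab j
      simp only [coordMat, Matrix.of_apply, RingHom.mapMatrix_apply, Matrix.map_apply]
      rw [hmat]
      rfl
    rw [h1, ← RingHom.map_det]
    exact hg.map ψ
  have hfrob' : ∀ ℓ : ℕ, ℓ.Prime → ℓ ∉ S →
      ∀ A' : ValuationSubring (AlgebraicClosure ℚ), A'.LiesOverPrime ℓ →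
        ∀ τ : GQ', A'.IsFrobeniusAt τ ℓ →
          LinearMap.charpoly (ρ₁.ρ τ) = LinearMap.charpoly (ρ''.ρ τ) := by
    intro ℓ hℓ hℓS A' hA' τ hτ
    have hℓN : ¬ ℓ ∣ N := fun h => hℓS (hNS ℓ hℓ h)
    have hℓS' : ℓ ∉ (↑S : Set ℕ) := fun h => hℓS (Finset.mem_coe.1 h)
    have h1 : LinearMap.charpoly (ρ₁.ρ τ) = (LinearMap.charpoly (ρ₀.ρ τ)).map ψ :=
      LinearMap.charpoly_baseChange (ρ₀.ρ τ) 𝒪''
    rw [h1, hρ₀ ℓ hℓ hℓN hℓS' A' hA' τ hτ, hρ'' ℓ hℓ hℓN hℓS' A' hA' τ hτ]
    simp [Polynomial.map_sub, Polynomial.map_add, Polynomial.map_mul, Polynomial.map_pow]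
  have heq : ρ₁.IsEquiv ρ'' :=
    isEquiv_of_trace_eq_of_basis ρ₁ ρ'' b₁ g hg₁
      (trace_eq_of_charpoly_frob_eq frobDensityLite ρ₁ ρ'' S hfrob')
  have hp𝒪'' : (p : 𝒪'') ∈ IsLocalRing.maximalIdeal 𝒪'' := by
    have h1 : (p : 𝒪'') = ψ (p : 𝒪') := by simp
    rw [h1, mem_maximalIdeal, mem_nonunits_iff]
    intro hu
    exact (mem_maximalIdeal _).1 hp𝒪' (isUnit_of_map_unit ψ _ hu)
  have hidn'' : IDN ρ'' p :=
    idn_of_det_frob ρ'' hp hp2 hp𝒪'' S
      (det_frob_of_charpoly ((algebraMap 𝒪' 𝒪'').comp χ) ρ'' hNS hρ'')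
  have h1 : WOres ρ₁ p := wores_baseChangeAlong ψ hloc hres
  have h2 : WOres ρ'' p := wores_of_isEquiv heq h1
  have h3 : ρ''.IsOrdinaryAt p := himp ((residual_isOrdinaryAt_iff_wores ρ'' p hidn'').2 h2)
  have h4 : WO ρ₁ p := by
    obtain ⟨e⟩ := heq
    exact wo_of_isEquiv ⟨e.symm⟩ (wo_of_isOrdinaryAt h3)
  exact wo_of_baseChangeAlong_family (ι := Unit) (O := fun _ => 𝒪'') (fun _ => ψ)
    (fun _ => hloc) (fun x hx => hinj (by rw [hx (), map_zero])) (fun _ => h4)

/-- A local homomorphism from `T` to a complete discrete valuation ring of characteristic zero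
with finite residue field. -/
structure LocalDVRPoint (T : Type) [CommRing T] [IsLocalRing T] : Type 1 where
  /-- the coefficient ring -/
  O : Type
  [instCommRing : CommRing O]
  [instIsDomain : IsDomain O]
  [instDVR : IsDiscreteValuationRing O]
  [instComplete : IsAdicComplete (IsLocalRing.maximalIdeal O) O]
  [instFinite : Finite (IsLocalRing.ResidueField O)]
  [instCharZero : CharZero O]
  /-- the point -/
  ψ : T →+* O
  isLocalHom : IsLocalHom ψ

attribute [instance] LocalDVRPoint.instCommRing LocalDVRPoint.instIsDomain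
  LocalDVRPoint.instDVR LocalDVRPoint.instComplete LocalDVRPoint.instFinite
  LocalDVRPoint.instCharZero

/-- `T` is separated by local homomorphisms to complete discrete valuation rings. -/
def HasLocalDVRPoints (T : Type) [CommRing T] [IsLocalRing T] : Prop :=
  ∃ (ι : Type) (Q : ι → LocalDVRPoint T), ∀ x : T, (∀ i, (Q i).ψ x = 0) → x = 0

variable {𝒪 : Type} [CommRing 𝒪] [IsDomain 𝒪] [IsDiscreteValuationRing 𝒪]
  [IsAdicComplete (IsLocalRing.maximalIdeal 𝒪) 𝒪]
  {θ : CuspForm.heckeAlgebra N 2 (↑S : Set ℕ) →+* IsLocalRing.ResidueField 𝒪}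
  {T : Type} [CommRing T] [IsLocalRing T] [IsNoetherianRing T]
  [IsAdicComplete (IsLocalRing.maximalIdeal T) T] [Algebra 𝒪 T] [IsLocalHom (algebraMap 𝒪 T)]
  [Module.Finite 𝒪 T] [Module.Free 𝒪 T]

/-- **S33 from the `p`-adic representations of eigen-systems**: the statement of the frozen S33
for a datum `H`, given `OrdinaryPoints p N S` and the separation of `T` by local points. -/
theorem isOrdinaryAt_of_ordinaryPoints (hOP : OrdinaryPoints p N S)
    (hp : p.Prime) (hp2 : p ≠ 2) (hp𝒪 : (p : 𝒪) ∈ IsLocalRing.maximalIdeal 𝒪)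
    (hNS : ∀ q : ℕ, q.Prime → q ∣ N → q ∈ S)
    (H : CuspForm.HeckeGaloisRepDatum N (↑S : Set ℕ) 𝒪 θ T)
    (hpts : HasLocalDVRPoints T)
    (hres : (GaloisRepAdic.ofResidualGaloisRep H.ρ.residual).IsOrdinaryAt p) :
    H.ρ.IsOrdinaryAt p := by
  classical
  obtain ⟨ι, Q, hQ⟩ := hpts
  have hpT : (p : T) ∈ IsLocalRing.maximalIdeal T := by
    have h1 : (p : T) = algebraMap 𝒪 T (p : 𝒪) := by simp
    rw [h1, mem_maximalIdeal, mem_nonunits_iff]
    intro hu
    exact (mem_maximalIdeal _).1 hp𝒪 (isUnit_of_map_unit (algebraMap 𝒪 T) _ hu)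
  have hidn : IDN H.ρ p :=
    idn_of_det_frob H.ρ hp hp2 hpT S (det_frob_of_charpoly H.π H.ρ hNS H.charpoly_frob)
  have hwores : WOres H.ρ p := (residual_isOrdinaryAt_iff_wores H.ρ p hidn).1 hres
  set b : Module.Basis (Fin 2) T H.ρ.V := Module.finBasisOfFinrankEq T H.ρ.V H.ρ.finrank_eq
    with hb
  obtain ⟨g, hg⟩ := exists_isUnit_det_coordMat H.ρ H.residual_absIrr b
  refine isOrdinaryAt_of_wo ?_ hidn
  refine wo_of_baseChangeAlong_family (fun i => (Q i).ψ) (fun i => (Q i).isLocalHom) hQ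
    fun i => ?_
  -- the point `i`
  have hloc := (Q i).isLocalHom
  letI : Algebra T (Q i).O := ((Q i).ψ).toAlgebra
  set ρi : GaloisRepAdic (Q i).O := H.ρ.baseChangeAlong (Q i).ψ hloc with hρi
  set bi : Module.Basis (Fin 2) (Q i).O ρi.V := Algebra.TensorProduct.basis (Q i).O b with hbi
  have hmat : ∀ τ, LinearMap.toMatrix bi bi (ρi.ρ τ) =
      (LinearMap.toMatrix b b (H.ρ.ρ τ)).map (Q i).ψ := fun τ =>
    LinearMap.toMatrix_baseChange (Q i).O (H.ρ.ρ τ) b b
  have hgi : IsUnit (coordMat (fun τ => LinearMap.toMatrix bi bi (ρi.ρ τ)) g).det := by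
    have h1 : coordMat (fun τ => LinearMap.toMatrix bi bi (ρi.ρ τ)) g =
        ((Q i).ψ).mapMatrix (coordMat (fun τ => LinearMap.toMatrix b b (H.ρ.ρ τ)) g) := by
      ext ab j
      simp only [coordMat, Matrix.of_apply, RingHom.mapMatrix_apply, Matrix.map_apply]
      rw [hmat]
      rfl
    rw [h1, ← RingHom.map_det]
    exact hg.map (Q i).ψ
  have hpi : (p : (Q i).O) ∈ IsLocalRing.maximalIdeal (Q i).O := by
    have h1 : (p : (Q i).O) = (Q i).ψ (p : T) := by simp
    rw [h1, mem_maximalIdeal, mem_nonunits_iff]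
    intro hu
    exact (mem_maximalIdeal _).1 hpT (isUnit_of_map_unit (Q i).ψ _ hu)
  have hfrobi : ∀ (ℓ : ℕ) (hℓ : ℓ.Prime) (hℓN : ¬ ℓ ∣ N) (hℓS : ℓ ∉ (↑S : Set ℕ)),
      ∀ A' : ValuationSubring (AlgebraicClosure ℚ), A'.LiesOverPrime ℓ →
        ∀ σ : GQ', A'.IsFrobeniusAt σ ℓ →
          LinearMap.charpoly (ρi.ρ σ) =
            X ^ 2 - C (((Q i).ψ.comp H.π) (CuspForm.heckeAlgebra.T hℓ hℓN hℓS)) * X
              + C ((ℓ : (Q i).O)) := by
    intro ℓ hℓ hℓN hℓS A' hA' σ hσ
    have h1 : LinearMap.charpoly (ρi.ρ σ) = (LinearMap.charpoly (H.ρ.ρ σ)).map (Q i).ψ :=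
      LinearMap.charpoly_baseChange (H.ρ.ρ σ) (Q i).O
    rw [h1, H.charpoly_frob ℓ hℓ hℓN hℓS A' hA' σ hσ]
    simp [Polynomial.map_sub, Polynomial.map_add, Polynomial.map_mul, Polynomial.map_pow]
  exact wo_of_ordinaryPoints hOP hp hp2 hNS (Q i).O hpi ((Q i).ψ.comp H.π) ρi hfrobi bi g hgi
    (wores_baseChangeAlong (Q i).ψ hloc hwores)

end Fermat.Agent.S33
end MergeWrap_S33_Reduction

section MergeWrap_S32_PointsDomain -- from S32/PointsDomain.lean

/-!
# DVR points of a domain which is finite over a Dedekind domain of characteristic zero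
(owner: helper62)

`exists_dedekind_points`: let `𝒪` be a Dedekind domain of characteristic zero, `p` a prime number
with `𝒪 ⧸ (p)` finite, and `D` a domain which is a finite `𝒪`-module with `𝒪 → D` injective.
Then there are a Dedekind domain `B`, finite over `𝒪`, an injective `𝒪`-algebra homomorphism
`D → B`, and finitely many ring homomorphisms from `B` to complete discrete valuation rings of
characteristic zero with finite residue fields of characteristic `p`, which detect divisibility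
by powers of `p` in `B`.
-/

set_option autoImplicit false
set_option linter.style.haveILetI false
set_option linter.overlappingInstances false

namespace Fermat.Agent.S32

open IsDedekindDomain HeightOneSpectrum WithZero IsLocalRing Fermat.Agent.DVRPoints
open scoped nonZeroDivisors

section FiniteQuot

variable {𝒪 : Type*} [CommRing 𝒪] {B : Type*} [CommRing B] [Algebra 𝒪 B] [Module.Finite 𝒪 B]

/-- The quotient of a finite algebra by an ideal containing `t` is finite if `𝒪 ⧸ (t)` is. -/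
theorem finite_quotient_of_mem (t : 𝒪) (hfin : Finite (𝒪 ⧸ Ideal.span {t})) (I : Ideal B)
    (ht : algebraMap 𝒪 B t ∈ I) : Finite (B ⧸ I) := by
  classical
  obtain ⟨n, f, hf⟩ := Module.Finite.exists_fin' 𝒪 B
  let g : (Fin n → 𝒪 ⧸ Ideal.span {t}) → B ⧸ I :=
    fun c => Ideal.Quotient.mk I (f fun i => (c i).out)
  refine Finite.of_surjective g fun y => ?_
  obtain ⟨b, rfl⟩ := Ideal.Quotient.mk_surjective y
  obtain ⟨a, rfl⟩ := hf b
  refine ⟨fun i => Ideal.Quotient.mk _ (a i), ?_⟩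
  show Ideal.Quotient.mk I (f fun i => (Ideal.Quotient.mk (Ideal.span {t}) (a i)).out) =
    Ideal.Quotient.mk I (f a)
  rw [Ideal.Quotient.eq, ← map_sub]
  have hdiff : ∀ i, ∃ c : 𝒪,
      (Ideal.Quotient.mk (Ideal.span {t}) (a i)).out - a i = t * c := by
    intro i
    have h1 : (Ideal.Quotient.mk (Ideal.span {t}) (a i)).out - a i ∈ Ideal.span {t} := by
      rw [← Ideal.Quotient.eq]
      exact Quotient.out_eq _
    exact Ideal.mem_span_singleton'.1 h1 |>.imp fun c hc => by rw [← hc, mul_comm]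
  choose c hc using hdiff
  have h2 : ((fun i => (Ideal.Quotient.mk (Ideal.span {t}) (a i)).out) - a) = t • c := by
    funext i
    simp only [Pi.sub_apply, Pi.smul_apply, smul_eq_mul]
    exact hc i
  rw [h2, map_smul, Algebra.smul_def]
  exact I.mul_mem_right _ ht

end FiniteQuot

section Domain

variable (𝒪 : Type) [CommRing 𝒪] [IsDomain 𝒪] [IsDedekindDomain 𝒪] [CharZero 𝒪]
  (D : Type) [CommRing D] [IsDomain D] [Algebra 𝒪 D] [Module.Finite 𝒪 D]

/-- DVR points of the normalisation of a domain finite over a Dedekind domain. -/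
theorem exists_dedekind_points (hinj : Function.Injective (algebraMap 𝒪 D))
    (p : ℕ) (hp : p.Prime) (hfin : Finite (𝒪 ⧸ Ideal.span {(p : 𝒪)})) :
    ∃ (B : Type) (_ : CommRing B) (_ : Algebra 𝒪 B) (_ : Module.Finite 𝒪 B)
      (φ : D →ₐ[𝒪] B) (ι : Type) (_ : Finite ι) (P : ι → DVRPt p B),
      Function.Injective φ ∧
      ∀ k : ℕ, ∃ m : ℕ, ∀ y : B,
        (∀ i, (P i).χ y ∈ IsLocalRing.maximalIdeal (P i).O ^ m) →
          ∃ z : B, y = (p : B) ^ k * z := by
  classical
  set K := FractionRing 𝒪 with hK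
  set L := FractionRing D with hL
  haveI : FaithfulSMul 𝒪 D := (faithfulSMul_iff_algebraMap_injective 𝒪 D).2 hinj
  have hinjL : Function.Injective (algebraMap 𝒪 L) := by
    rw [IsScalarTower.algebraMap_eq 𝒪 D L]
    exact (IsFractionRing.injective D L).comp hinj
  haveI : FaithfulSMul 𝒪 L := (faithfulSMul_iff_algebraMap_injective 𝒪 L).2 hinjL
  letI : Algebra K L := FractionRing.liftAlgebra 𝒪 L
  haveI : IsScalarTower 𝒪 K L := FractionRing.isScalarTower_liftAlgebra 𝒪 L
  haveI : CharZero K := charZero_of_injective_algebraMap (IsFractionRing.injective 𝒪 K)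
  haveI : CharZero L := charZero_of_injective_algebraMap hinjL
  haveI : FiniteDimensional K L := Module.Finite.of_isLocalization 𝒪 D 𝒪⁰
  set B := integralClosure 𝒪 L with hB
  haveI : IsDedekindDomain B := inferInstance
  haveI : IsFractionRing B L := integralClosure.isFractionRing_of_finite_extension K L
  haveI : Module.Finite 𝒪 B := IsIntegralClosure.finite 𝒪 K L B
  haveI : CharZero B := charZero_of_injective_algebraMap (R := 𝒪) (A := B)
    (fun x y hxy => hinjL (by
      have := congrArg (algebraMap B L) hxy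
      rwa [← IsScalarTower.algebraMap_apply, ← IsScalarTower.algebraMap_apply] at this))
  let φ : D →ₐ[𝒪] B := IsIntegralClosure.lift 𝒪 B L
  have hφ : ∀ x, algebraMap B L (φ x) = algebraMap D L x :=
    fun x => IsIntegralClosure.algebraMap_lift 𝒪 B L x
  have hφinj : Function.Injective φ := by
    intro x y hxy
    have h1 := hφ x
    rw [hxy, hφ] at h1
    exact (IsFractionRing.injective D L h1).symm
  have hp0 : (p : B) ≠ 0 := by exact_mod_cast hp.ne_zero
  have hquot : ∀ v : HeightOneSpectrum B, (p : B) ∈ v.asIdeal → Finite (B ⧸ v.asIdeal) := by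
    intro v hv
    refine finite_quotient_of_mem (p : 𝒪) hfin v.asIdeal ?_
    rw [map_natCast]
    exact hv
  have hfib : Finite {v : HeightOneSpectrum B // (p : B) ∈ v.asIdeal} := by
    have hfin' : {v : HeightOneSpectrum B | v.asIdeal ∣ Ideal.span {(p : B)}}.Finite :=
      Ideal.finite_factors (by simpa using hp0)
    have : {v : HeightOneSpectrum B | (p : B) ∈ v.asIdeal}.Finite := by
      refine hfin'.subset fun v hv => ?_
      rw [Set.mem_ofPred_eq, Ideal.dvd_span_singleton]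
      exact hv
    exact this.to_subtype
  let P : {v : HeightOneSpectrum B // (p : B) ∈ v.asIdeal} → DVRPt p B := fun a =>
    haveI : Finite (B ⧸ a.1.asIdeal) := hquot a.1 a.2
    { O := a.1.adicCompletionIntegers L
      instComplete := isAdicComplete_adicCompletionIntegers a.1
      instFinite := finite_residueField a.1
      instCharZero := charZero_adicCompletionIntegers a.1
      hp := natCast_mem_maximalIdeal a.1 p a.2
      χ := algebraMap B (a.1.adicCompletionIntegers L) }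
  refine ⟨B, inferInstance, inferInstance, inferInstance, φ, _, hfib, P, hφinj, fun k => ?_⟩
  obtain ⟨m, hm⟩ := exists_pow_separation (p : B) hp0 k
  refine ⟨m, fun y hy => hm y fun v hv => ?_⟩
  have h1 : algebraMap B (v.adicCompletionIntegers L) y ∈
      IsLocalRing.maximalIdeal (v.adicCompletionIntegers L) ^ m := hy ⟨v, hv⟩
  exact (algebraMap_mem_maximalIdeal_pow_iff (K := L) v y m).1 h1

end Domain

end Fermat.Agent.S32
end MergeWrap_S32_PointsDomain

section MergeWrap_S32_Points -- from S32/Points.lean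

/-!
# DVR points of a reduced ring which is finite and torsion-free over a Dedekind domain
(owner: helper62)

`dvrSeparation_of_finite`: let `𝒪` be a Dedekind domain of characteristic zero, `p` a prime number
with `𝒪 ⧸ (p)` finite, and `T` a reduced `𝒪`-algebra which is finite and torsion-free as an
`𝒪`-module.  Then `T` is separated, uniformly for the `p`-adic topology, by finitely many ring
homomorphisms to complete discrete valuation rings of characteristic zero with finite residue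
field of characteristic `p` (`Fermat.Agent.DVRPoints.DVRSeparation p T`).

`isLocalHom_of_natCast_mem`: such points are local homomorphisms when `T` is local with `p` in its
maximal ideal.
-/

set_option autoImplicit false
set_option linter.style.haveILetI false
set_option linter.overlappingInstances false

namespace Fermat.Agent.S32

open Fermat.Agent.DVRPoints
open scoped nonZeroDivisors

/-- Artin–Rees for a principal ideal. -/
theorem exists_artinRees {R N M : Type*} [CommRing R] [IsNoetherianRing R]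
    [AddCommGroup N] [Module R N] [AddCommGroup M] [Module R M] [Module.Finite R M]
    (f : N →ₗ[R] M) (hf : Function.Injective f) (t : R) :
    ∃ c : ℕ, ∀ (r : ℕ) (x : N), (∃ y : M, f x = t ^ (r + c) • y) →
      ∃ x' : N, x = t ^ r • x' := by
  obtain ⟨c, hc⟩ := Ideal.exists_pow_inf_eq_pow_smul (Ideal.span {t}) (LinearMap.range f)
  refine ⟨c, fun r x ⟨y, hy⟩ => ?_⟩
  have h1 : f x ∈ (Ideal.span {t}) ^ (r + c) • (⊤ : Submodule R M) ⊓ LinearMap.range f := by
    refine ⟨?_, LinearMap.mem_range_self f x⟩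
    rw [hy, Ideal.span_singleton_pow]
    exact Submodule.smul_mem_smul (Ideal.mem_span_singleton_self _) Submodule.mem_top
  rw [hc (r + c) (Nat.le_add_left c r), Nat.add_sub_cancel] at h1
  have h2 : f x ∈ (Ideal.span {t}) ^ r • LinearMap.range f :=
    Submodule.smul_mono le_rfl inf_le_right h1
  rw [Ideal.span_singleton_pow, Submodule.ideal_span_singleton_smul,
    Submodule.mem_smul_pointwise_iff_exists] at h2
  obtain ⟨_, ⟨x', rfl⟩, hx'⟩ := h2
  refine ⟨x', hf ?_⟩
  rw [map_smul]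
  exact hx'.symm

section Main

variable (𝒪 : Type) [CommRing 𝒪] [IsDomain 𝒪] [IsDedekindDomain 𝒪] [CharZero 𝒪]
  (T : Type) [CommRing T] [Algebra 𝒪 T] [Module.Finite 𝒪 T] [IsReduced T]

/-- A reduced ring which is finite and torsion-free over a Dedekind domain of characteristic
zero is separated, uniformly for the `p`-adic topology, by finitely many DVR points. -/
theorem dvrSeparation_of_finite
    (htf : ∀ (a : 𝒪) (x : T), a ≠ 0 → a • x = 0 → x = 0)
    (p : ℕ) (hp : p.Prime) (hfin : Finite (𝒪 ⧸ Ideal.span {(p : 𝒪)})) :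
    DVRSeparation p T := by
  classical
  have : IsNoetherianRing T := Algebra.FiniteType.isNoetherianRing 𝒪 T
  have : Finite (minimalPrimes T) := (minimalPrimes.finite_of_isNoetherianRing T).to_subtype
  have hprime : ∀ 𝔮 : minimalPrimes T, 𝔮.1.IsPrime := fun 𝔮 => Ideal.IsMinimalPrime.isPrime 𝔮.2
  have hinj : ∀ 𝔮 : minimalPrimes T, Function.Injective (algebraMap 𝒪 (T ⧸ 𝔮.1)) := by
    intro 𝔮
    rw [injective_iff_map_eq_zero]
    intro a ha
    by_contra ha0
    have h1 : algebraMap 𝒪 T a ∈ 𝔮.1 := by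
      rw [← Ideal.Quotient.eq_zero_iff_mem]
      exact ha
    have h2 : algebraMap 𝒪 T a ∈ nonZeroDivisors T := by
      rw [mem_nonZeroDivisors_iff_right]
      intro x hx
      refine htf a x ha0 ?_
      rw [Algebra.smul_def, mul_comm]
      exact hx
    exact Set.disjoint_left.1 (Ideal.disjoint_nonZeroDivisors_of_mem_minimalPrimes 𝔮.2) h1 h2
  choose B iB1 iB2 iB3 φ ι iι P hφ hsep using fun 𝔮 : minimalPrimes T =>
    exists_dedekind_points 𝒪 (T ⧸ 𝔮.1) (hinj 𝔮) p hp hfin
  let ψ : ∀ 𝔮 : minimalPrimes T, T →ₐ[𝒪] B 𝔮 := fun 𝔮 =>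
    (φ 𝔮).comp (Ideal.Quotient.mkₐ 𝒪 𝔮.1)
  let Q : (Σ 𝔮 : minimalPrimes T, ι 𝔮) → DVRPt p T := fun a =>
    (P a.1 a.2).comap (ψ a.1 : T →+* B a.1)
  refine DVRSeparation.of_finite Q fun r => ?_
  let f : T →ₗ[𝒪] (∀ 𝔮, B 𝔮) := LinearMap.pi fun 𝔮 => (ψ 𝔮).toLinearMap
  have hf : Function.Injective f := by
    rw [injective_iff_map_eq_zero]
    intro X hX
    have h1 : X ∈ sInf (minimalPrimes T) := by
      rw [Ideal.mem_sInf]
      intro 𝔮 h𝔮
      have h2 : ψ ⟨𝔮, h𝔮⟩ X = 0 := congrFun hX ⟨𝔮, h𝔮⟩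
      have h3 : φ ⟨𝔮, h𝔮⟩ (Ideal.Quotient.mk 𝔮 X) = 0 := h2
      rw [map_eq_zero_iff _ (hφ ⟨𝔮, h𝔮⟩), Ideal.Quotient.eq_zero_iff_mem] at h3
      exact h3
    rw [minimalPrimes, Ideal.sInf_minimalPrimes] at h1
    have h3 : IsNilpotent X := by
      rwa [← mem_nilradical, nilradical]
    exact h3.eq_zero
  obtain ⟨c, hc⟩ := exists_artinRees f hf (p : 𝒪)
  choose m hm using fun 𝔮 => hsep 𝔮 (r + c)
  obtain ⟨m0, hm0⟩ : ∃ m0, ∀ 𝔮, m 𝔮 ≤ m0 := by
    obtain ⟨m0, hm0⟩ := (Set.finite_range m).bddAbove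
    exact ⟨m0, fun 𝔮 => hm0 (Set.mem_range_self 𝔮)⟩
  refine ⟨m0, fun X hX => ?_⟩
  have hz : ∀ 𝔮, ∃ z : B 𝔮, ψ 𝔮 X = (p : B 𝔮) ^ (r + c) * z := by
    intro 𝔮
    apply hm 𝔮
    intro i
    exact Ideal.pow_le_pow_right (hm0 𝔮) (hX ⟨𝔮, i⟩)
  choose z hz using hz
  obtain ⟨Y, hY⟩ := hc r X ⟨z, by
    funext 𝔮
    show ψ 𝔮 X = ((p : 𝒪) ^ (r + c) • z) 𝔮
    rw [Pi.smul_apply, hz 𝔮, Algebra.smul_def, map_pow, map_natCast]⟩
  refine ⟨Y, ?_⟩
  rw [hY, Algebra.smul_def, map_pow, map_natCast]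

end Main

/-- A ring homomorphism from a local ring `T` with `T ⧸ (p)` finite and `p` in the maximal ideal
to a local ring in which `p` is not a unit is a local homomorphism. -/
theorem isLocalHom_of_natCast_mem {T O : Type*} [CommRing T] [IsLocalRing T] [CommRing O]
    [IsLocalRing O] (p : ℕ) (hfin : Finite (T ⧸ Ideal.span {(p : T)}))
    (hpO : (p : O) ∈ IsLocalRing.maximalIdeal O) (ψ : T →+* O) : IsLocalHom ψ := by
  refine ⟨fun a ha => ?_⟩
  by_contra hna
  have ham : a ∈ IsLocalRing.maximalIdeal T := (IsLocalRing.mem_maximalIdeal _).2 hna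
  -- two powers of `a` agree modulo `p`
  obtain ⟨i, j, hij, hpow⟩ : ∃ i j : ℕ, i < j ∧
      Ideal.Quotient.mk (Ideal.span {(p : T)}) (a ^ i) =
        Ideal.Quotient.mk (Ideal.span {(p : T)}) (a ^ j) := by
    have hninj : ¬ Function.Injective
        (fun n : ℕ => Ideal.Quotient.mk (Ideal.span {(p : T)}) (a ^ n)) :=
      not_injective_infinite_finite _
    rw [Function.Injective] at hninj
    push Not at hninj
    obtain ⟨i, j, hij, hne⟩ := hninj
    rcases Nat.lt_or_gt_of_ne hne with h | h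
    · exact ⟨i, j, h, hij⟩
    · exact ⟨j, i, h, hij.symm⟩
  rw [Ideal.Quotient.eq, Ideal.mem_span_singleton] at hpow
  obtain ⟨b, hb⟩ := hpow
  have h1 : a ^ i * (1 - a ^ (j - i)) = (p : T) * b := by
    rw [← hb, mul_sub, mul_one, ← pow_add, Nat.add_sub_cancel' hij.le]
  have hunit : IsUnit (1 - a ^ (j - i)) := by
    have h2 : a ^ (j - i) ∈ IsLocalRing.maximalIdeal T :=
      Ideal.pow_mem_of_mem _ ham _ (Nat.sub_pos_of_lt hij)
    by_contra h3
    have h4 : 1 - a ^ (j - i) ∈ IsLocalRing.maximalIdeal T :=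
      (IsLocalRing.mem_maximalIdeal _).2 h3
    have h5 : (1 : T) ∈ IsLocalRing.maximalIdeal T := by
      have := Ideal.add_mem _ h4 h2
      rwa [sub_add_cancel] at this
    exact (Ideal.ne_top_iff_one _).1 (IsLocalRing.maximalIdeal.isMaximal T).ne_top h5
  obtain ⟨u, hu⟩ := hunit
  have h6 : a ^ i = (p : T) * (b * ↑u⁻¹) := by
    rw [← mul_assoc, ← h1, ← hu, mul_assoc, Units.mul_inv, mul_one]
  have h7 : ψ a ^ i ∈ IsLocalRing.maximalIdeal O := by
    rw [← map_pow, h6, map_mul, map_natCast]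
    exact Ideal.mul_mem_right _ _ hpO
  have h8 : IsUnit (ψ a ^ i) := ha.pow i
  exact (IsLocalRing.mem_maximalIdeal _).1 h7 h8

end Fermat.Agent.S32
end MergeWrap_S32_Points

section MergeWrap_S32_Reduced -- from S32/Reduced.lean

/-!
# The coefficient ring of a Hecke–Galois datum is reduced (abstract form)
(owner: helper62)

`formallyUnramified_of_adjoin`: a commutative algebra over a field which is generated by elements
killed by separable polynomials is formally unramified.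

`isReduced_of_adjoin_range`: let `R` be a domain of characteristic zero, `h` a reduced commutative
ring which is a finitely generated `ℤ`-module, and `T` a finite flat `R`-algebra generated over `R`
by the image of a ring homomorphism `h →+* T`.  Then `T` is reduced.
-/

set_option autoImplicit false

namespace Fermat.Agent.S32

open Polynomial
open scoped TensorProduct

section Unram

variable {K A : Type*} [Field K] [CommRing A] [Algebra K A]

/-- The derivative of a separable polynomial is invertible at every root. -/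
lemma isUnit_aeval_derivative {g : K[X]} (hg : g.Separable) {x : A} (hx : aeval x g = 0) :
    IsUnit (aeval x (derivative g)) := by
  obtain ⟨a, b, hab⟩ := hg
  have h1 := congrArg (aeval x) hab
  simp only [map_add, map_mul, hx, mul_zero, zero_add, map_one] at h1
  exact IsUnit.of_mul_eq_one _ (by rw [mul_comm]; exact h1)

/-- A commutative algebra over a field generated by elements killed by separable polynomials
is formally unramified. -/
theorem formallyUnramified_of_adjoin (s : Set A) (hs : Algebra.adjoin K s = ⊤)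
    (hsep : ∀ x ∈ s, ∃ g : K[X], g.Separable ∧ aeval x g = 0) :
    Algebra.FormallyUnramified K A := by
  rw [Algebra.FormallyUnramified.iff_comp_injective]
  intro B _ _ I hI f₁ f₂ e
  apply AlgHom.ext_of_adjoin_eq_top hs
  intro x hx
  obtain ⟨g, hg, hgx⟩ := hsep x hx
  have h1 : f₁ x - f₂ x ∈ I := by
    simpa [Ideal.Quotient.mk_eq_mk_iff_sub_mem] using AlgHom.congr_fun e x
  have h2 := Polynomial.eval_add_of_sq_eq_zero (g.map (algebraMap K B)) (f₂ x)
    (f₁ x - f₂ x) (show (f₁ x - f₂ x) ^ 2 ∈ ⊥ from hI ▸ Ideal.pow_mem_pow h1 2)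
  simp only [add_sub_cancel, eval_map_algebraMap, aeval_algHom_apply, hgx, map_zero,
    derivative_map, zero_add] at h2
  rwa [eq_comm, ((isUnit_aeval_derivative hg hgx).map f₂).mul_right_eq_zero, sub_eq_zero] at h2

end Unram

section RatTensor

attribute [local instance] Algebra.TensorProduct.rightAlgebra in
/-- `ℚ ⊗ h` is reduced if `h` is. -/
theorem isReduced_rat_tensor (h : Type*) [CommRing h] [IsReduced h] : IsReduced (ℚ ⊗[ℤ] h) :=
  isReduced_localizationPreserves (Algebra.algebraMapSubmonoid h (nonZeroDivisors ℤ))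
    (ℚ ⊗[ℤ] h) inferInstance

/-- Every element of a reduced ring which is finite over `ℤ` is killed, in every field of
characteristic zero... more precisely: the minimal polynomial over `ℚ` of `1 ⊗ t` is
separable. -/
theorem separable_minpoly_rat_tensor (h : Type*) [CommRing h] [IsReduced h] [Module.Finite ℤ h]
    (t : h) : (minpoly ℚ ((1 : ℚ) ⊗ₜ[ℤ] t : ℚ ⊗[ℤ] h)).Separable := by
  have : IsReduced (ℚ ⊗[ℤ] h) := isReduced_rat_tensor h
  have hint : IsIntegral ℚ ((1 : ℚ) ⊗ₜ[ℤ] t : ℚ ⊗[ℤ] h) := Algebra.IsIntegral.isIntegral _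
  rw [PerfectField.separable_iff_squarefree]
  exact (minpoly.isRadical ℚ _).squarefree (minpoly.ne_zero hint)

end RatTensor

section Main

variable (R : Type*) [CommRing R] [IsDomain R] [CharZero R]
  (h : Type*) [CommRing h] [IsReduced h] [Module.Finite ℤ h]
  (T : Type*) [CommRing T] [Algebra R T] [Module.Finite R T] [Module.Flat R T]

/-- A finite flat algebra over a domain of characteristic zero which is generated by the image
of a reduced ring, finite over `ℤ`, is reduced. -/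
theorem isReduced_of_adjoin_range (π : h →+* T)
    (hπ : Algebra.adjoin R (Set.range π) = ⊤) : IsReduced T := by
  classical
  set K := FractionRing R with hK
  have : CharZero K := charZero_of_injective_algebraMap (IsFractionRing.injective R K)
  set A := K ⊗[R] T with hA
  let ι : T →ₐ[R] A := Algebra.TensorProduct.includeRight
  have hι : Function.Injective ι :=
    Algebra.TensorProduct.includeRight_injective (IsFractionRing.injective R K)
  set s : Set A := Set.range fun t : h => ι (π t) with hs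
  -- generation
  have hgenT : ∀ x : T, ι x ∈ Algebra.adjoin K s := by
    intro x
    have hx : x ∈ Algebra.adjoin R (Set.range π) := by rw [hπ]; trivial
    induction hx using Algebra.adjoin_induction with
    | mem y hy =>
      obtain ⟨t, rfl⟩ := hy
      exact Algebra.subset_adjoin ⟨t, rfl⟩
    | algebraMap r =>
      have : ι (algebraMap R T r) = algebraMap K A (algebraMap R K r) := by
        rw [AlgHom.commutes, IsScalarTower.algebraMap_apply R K A]
      rw [this]
      exact Subalgebra.algebraMap_mem _ _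
    | add y z _ _ hy hz => rw [map_add]; exact Subalgebra.add_mem _ hy hz
    | mul y z _ _ hy hz => rw [map_mul]; exact Subalgebra.mul_mem _ hy hz
  have hgen : Algebra.adjoin K s = ⊤ := by
    rw [eq_top_iff]
    rintro z -
    induction z using TensorProduct.induction_on with
    | zero => exact Subalgebra.zero_mem _
    | tmul a x =>
      have : a ⊗ₜ[R] x = a • ι x := by
        show a ⊗ₜ[R] x = a • ((1 : K) ⊗ₜ[R] x)
        rw [TensorProduct.smul_tmul', smul_eq_mul, mul_one]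
      rw [this]
      exact Subalgebra.smul_mem _ (hgenT x) a
    | add y z hy hz => exact Subalgebra.add_mem _ hy hz
  -- separability of the generators
  have hsep : ∀ x ∈ s, ∃ g : K[X], g.Separable ∧ aeval x g = 0 := by
    rintro _ ⟨t, rfl⟩
    refine ⟨(minpoly ℚ ((1 : ℚ) ⊗ₜ[ℤ] t : ℚ ⊗[ℤ] h)).map (algebraMap ℚ K),
      (separable_minpoly_rat_tensor h t).map, ?_⟩
    let f₁ : ℚ →ₐ[ℤ] A :=
      { toRingHom := (algebraMap K A).comp (algebraMap ℚ K)
        commutes' := fun n => by simp }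
    let f₂ : h →ₐ[ℤ] A :=
      { toRingHom := (ι : T →+* A).comp π
        commutes' := fun n => by simp }
    let φ : ℚ ⊗[ℤ] h →ₐ[ℤ] A := Algebra.TensorProduct.productMap f₁ f₂
    have hφy : φ ((1 : ℚ) ⊗ₜ[ℤ] t) = ι (π t) := by
      show Algebra.TensorProduct.productMap f₁ f₂ ((1 : ℚ) ⊗ₜ[ℤ] t) = ι (π t)
      rw [Algebra.TensorProduct.productMap_apply_tmul, map_one, one_mul]
      rfl
    have hcomp : (φ : ℚ ⊗[ℤ] h →+* A).comp (algebraMap ℚ (ℚ ⊗[ℤ] h)) =
        (algebraMap K A).comp (algebraMap ℚ K) := Subsingleton.elim _ _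
    have h0 := minpoly.aeval ℚ ((1 : ℚ) ⊗ₜ[ℤ] t : ℚ ⊗[ℤ] h)
    have h1 := congrArg (φ : ℚ ⊗[ℤ] h →+* A) h0
    rw [map_zero, Polynomial.aeval_def, Polynomial.hom_eval₂, hcomp] at h1
    rw [Polynomial.aeval_def, Polynomial.eval₂_map]
    show eval₂ ((algebraMap K A).comp (algebraMap ℚ K)) (ι (π t)) _ = 0
    rw [← hφy]
    exact h1
  have hFU : Algebra.FormallyUnramified K A := formallyUnramified_of_adjoin s hgen hsep
  have hRed : IsReduced A := Algebra.FormallyUnramified.isReduced_of_field K A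
  exact isReduced_of_injective (ι : T →+* A) hι

end Main

end Fermat.Agent.S32
end MergeWrap_S32_Reduced

section MergeWrap_S32_DatumPoints -- from S32/DatumPoints.lean

/-!
# The coefficient ring of a Hecke–Galois datum: reducedness and DVR points
(owner: helper62)

For a datum `H : HeckeGaloisRepDatum N S 𝒪 θ T` with `𝒪` of characteristic zero and `S` containing
the primes dividing `N`:

* `isReduced_of_datum`: `T` is reduced;
* `dvrSeparation_of_datum`: (finite residue field) `T` is separated, uniformly for the `p`-adic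
  topology, by finitely many ring homomorphisms to complete discrete valuation rings of
  characteristic zero with finite residue field of characteristic `p`;
* `isLocalHom_of_dvrPt`: every such point of `T` is a local homomorphism.
-/

set_option autoImplicit false
set_option linter.style.haveILetI false
set_option linter.overlappingInstances false
set_option linter.unusedSectionVars false

namespace Fermat.Agent.S32

open Fermat.Agent.DVRPoints IsLocalRing

/-- In a discrete valuation ring of characteristic zero with finite residue field, the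
quotient by a nonzero integer is finite. -/
theorem finite_quotient_span_natCast (𝒪 : Type*) [CommRing 𝒪] [IsDomain 𝒪]
    [IsDiscreteValuationRing 𝒪] [Finite (ResidueField 𝒪)] [CharZero 𝒪] (n : ℕ) (hn : n ≠ 0) :
    Finite (𝒪 ⧸ Ideal.span {(n : 𝒪)}) := by
  have hn0 : (n : 𝒪) ≠ 0 := Nat.cast_ne_zero.2 hn
  obtain ⟨ϖ, hϖ⟩ := IsDiscreteValuationRing.exists_irreducible 𝒪
  obtain ⟨k, hk⟩ := IsDiscreteValuationRing.ideal_eq_span_pow_irreducible
    (s := Ideal.span {(n : 𝒪)}) (by simpa using hn0) hϖ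
  have h1 : Ideal.span {(n : 𝒪)} = maximalIdeal 𝒪 ^ k := by
    rw [hk, hϖ.maximalIdeal_eq, Ideal.span_singleton_pow]
  rw [h1]
  haveI : Finite (𝒪 ⧸ maximalIdeal 𝒪) := inferInstanceAs (Finite (ResidueField 𝒪))
  exact Ideal.finite_quotient_pow (IsNoetherian.noetherian (maximalIdeal 𝒪)) k

variable {p : ℕ} {N : ℕ} [NeZero N] {S : Finset ℕ}
  {𝒪 : Type} [CommRing 𝒪] [IsDomain 𝒪] [IsDiscreteValuationRing 𝒪]
  [IsAdicComplete (IsLocalRing.maximalIdeal 𝒪) 𝒪]
  {θ : CuspForm.heckeAlgebra N 2 (↑S : Set ℕ) →+* IsLocalRing.ResidueField 𝒪}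
  {T : Type} [CommRing T] [IsLocalRing T] [IsNoetherianRing T]
  [IsAdicComplete (IsLocalRing.maximalIdeal T) T] [Algebra 𝒪 T] [IsLocalHom (algebraMap 𝒪 T)]
  [Module.Finite 𝒪 T] [Module.Free 𝒪 T]

/-- The coefficient ring of a datum is reduced. -/
theorem isReduced_of_datum [CharZero 𝒪] (hNS : ∀ q : ℕ, q.Prime → q ∣ N → q ∈ S)
    (H : CuspForm.HeckeGaloisRepDatum N (↑S : Set ℕ) 𝒪 θ T) : IsReduced T := by
  have : Module.Finite ℤ (CuspForm.heckeAlgebra N 2 (↑S : Set ℕ)) :=
    Fermat.Agent.S22.result N 2 _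
  have : IsReduced (CuspForm.heckeAlgebra N 2 (↑S : Set ℕ)) :=
    Fermat.Agent.Pet.isReduced_heckeAlgebra N 2 _ (fun q hq hqN => by exact_mod_cast hNS q hq hqN)
  exact isReduced_of_adjoin_range 𝒪 (CuspForm.heckeAlgebra N 2 (↑S : Set ℕ)) T H.π
    H.adjoin_range_π

omit [IsLocalRing T] [IsNoetherianRing T] [IsAdicComplete (IsLocalRing.maximalIdeal T) T]
  [IsLocalHom (algebraMap 𝒪 T)] [IsAdicComplete (IsLocalRing.maximalIdeal 𝒪) 𝒪] [NeZero N] in
/-- `T ⧸ (p)` is finite. -/
theorem finite_quotient_datum [Finite (ResidueField 𝒪)] [CharZero 𝒪] (hp : p.Prime) :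
    Finite (T ⧸ Ideal.span {(p : T)}) := by
  refine finite_quotient_of_mem (p : 𝒪) (finite_quotient_span_natCast 𝒪 p hp.ne_zero) _ ?_
  rw [map_natCast]
  exact Ideal.mem_span_singleton_self _

/-- The coefficient ring of a datum is separated, uniformly for the `p`-adic topology, by
finitely many DVR points. -/
theorem dvrSeparation_of_datum [Finite (ResidueField 𝒪)] [CharZero 𝒪] (hp : p.Prime)
    (hNS : ∀ q : ℕ, q.Prime → q ∣ N → q ∈ S)
    (H : CuspForm.HeckeGaloisRepDatum N (↑S : Set ℕ) 𝒪 θ T) : DVRSeparation p T := by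
  have := isReduced_of_datum hNS H
  refine dvrSeparation_of_finite 𝒪 T (fun a x ha hax => ?_) p hp
    (finite_quotient_span_natCast 𝒪 p hp.ne_zero)
  exact (smul_eq_zero.1 hax).resolve_left ha

omit [IsNoetherianRing T] [IsAdicComplete (IsLocalRing.maximalIdeal T) T]
  [IsLocalHom (algebraMap 𝒪 T)] [IsAdicComplete (IsLocalRing.maximalIdeal 𝒪) 𝒪] [NeZero N] in
/-- Every DVR point of the coefficient ring of a datum is a local homomorphism. -/
theorem isLocalHom_of_dvrPt [Finite (ResidueField 𝒪)] [CharZero 𝒪] (hp : p.Prime)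
    (P : DVRPt p T) : IsLocalHom P.χ :=
  isLocalHom_of_natCast_mem p (finite_quotient_datum (𝒪 := 𝒪) hp) P.hp P.χ

end Fermat.Agent.S32
end MergeWrap_S32_DatumPoints

section MergeWrap_S33_Assembly -- from S33/Assembly.lean

/-!
# S33: the assembly (owner: helper11)

`s33_of_ordinaryPoints`: the frozen statement S33 (same binders), from `OrdinaryPoints p N S`
(S33/Reduction.lean; the geometric input).  The separation of the coefficient ring `T` of a datum
by local points in complete discrete valuation rings is helper62's `S32.dvrSeparation_of_datum`.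
-/

set_option autoImplicit false
set_option linter.style.haveILetI false

namespace Fermat.Agent.S33

open IsLocalRing Fermat.Agent.DVRPoints

variable {p : ℕ} {N : ℕ} [NeZero N] {S : Finset ℕ}
  {𝒪 : Type} [CommRing 𝒪] [IsDomain 𝒪] [IsDiscreteValuationRing 𝒪]
  [IsAdicComplete (IsLocalRing.maximalIdeal 𝒪) 𝒪]
  {θ : CuspForm.heckeAlgebra N 2 (↑S : Set ℕ) →+* IsLocalRing.ResidueField 𝒪}
  {T : Type} [CommRing T] [IsLocalRing T] [IsNoetherianRing T]
  [IsAdicComplete (IsLocalRing.maximalIdeal T) T] [Algebra 𝒪 T] [IsLocalHom (algebraMap 𝒪 T)]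
  [Module.Finite 𝒪 T] [Module.Free 𝒪 T]

/-- The coefficient ring of a datum is separated by local points in complete discrete valuation
rings. -/
theorem hasLocalDVRPoints_of_datum [Finite (IsLocalRing.ResidueField 𝒪)] [CharZero 𝒪]
    (hp : p.Prime) (hp𝒪 : (p : 𝒪) ∈ IsLocalRing.maximalIdeal 𝒪)
    (hNS : ∀ q : ℕ, q.Prime → q ∣ N → q ∈ S)
    (H : CuspForm.HeckeGaloisRepDatum N (↑S : Set ℕ) 𝒪 θ T) : HasLocalDVRPoints T := by
  obtain ⟨d, P, hP⟩ := Fermat.Agent.S32.dvrSeparation_of_datum hp hNS H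
  have hpT : (p : T) ∈ IsLocalRing.maximalIdeal T := by
    have h1 : (p : T) = algebraMap 𝒪 T (p : 𝒪) := by simp
    rw [h1, mem_maximalIdeal, mem_nonunits_iff]
    intro hu
    exact (mem_maximalIdeal _).1 hp𝒪 (isUnit_of_map_unit (algebraMap 𝒪 T) _ hu)
  have hbot : ⨅ n : ℕ, IsLocalRing.maximalIdeal T ^ n = ⊥ :=
    Ideal.iInf_pow_eq_bot_of_isLocalRing _ (Ideal.IsMaximal.ne_top inferInstance)
  refine ⟨Fin d, fun i =>
    { O := (P i).O
      ψ := (P i).χ
      isLocalHom := Fermat.Agent.S32.isLocalHom_of_dvrPt (𝒪 := 𝒪) hp (P i) }, fun x hx => ?_⟩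
  rw [← Ideal.mem_bot, ← hbot, Ideal.mem_iInf]
  intro r
  obtain ⟨m, hm⟩ := hP r
  obtain ⟨Y, hY⟩ := hm x fun i => by
    have : (P i).χ x = 0 := hx i
    rw [this]
    exact Ideal.zero_mem _
  rw [hY]
  exact Ideal.mul_mem_right _ _ (Ideal.pow_mem_pow hpT r)

/-- **S33 from `OrdinaryPoints`** (binders of the frozen statement). -/
theorem s33_of_ordinaryPoints (hOP : OrdinaryPoints p N S)
    [Finite (IsLocalRing.ResidueField 𝒪)] [CharZero 𝒪]
    (hp : p.Prime) (hp2 : p ≠ 2) (hp𝒪 : (p : 𝒪) ∈ IsLocalRing.maximalIdeal 𝒪)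
    (_hN : p ∣ N ∧ ¬ p ^ 2 ∣ N)
    (hNS : ∀ q : ℕ, q.Prime → q ∣ N → q ∈ S)
    (H : CuspForm.HeckeGaloisRepDatum N (↑S : Set ℕ) 𝒪 θ T)
    (hres : (GaloisRepAdic.ofResidualGaloisRep H.ρ.residual).IsOrdinaryAt p) :
    H.ρ.IsOrdinaryAt p :=
  isOrdinaryAt_of_ordinaryPoints hOP hp hp2 hp𝒪 hNS H
    (hasLocalDVRPoints_of_datum hp hp𝒪 hNS H) hres

end Fermat.Agent.S33
end MergeWrap_S33_Assembly

section MergeWrap_S33_OldNew -- from S33/OldNew.lean

/-!
# S33: the two suppliers (owner: helper11)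

`OrdinaryPoints p N S` (S33/Reduction.lean) is split, point by point, into

* `OldOrdinary p N₀ N S` : the points `χ` of the Hecke algebra of level `N` which occur at level
  `N₀` (`N = p * N₀`, `p ∤ N₀`) — supplier: flatness at level `N₀` (S19 / S32) + FFL-ORD;
* `NewOrdinary p N₀ N S` : the points which do not occur at level `N₀` — supplier: the toric part
  at `p` (`(T1p)`).

`s33_of_old_new` : the frozen S33 (same binders) from the two.
-/

set_option autoImplicit false
set_option linter.style.haveILetI false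

namespace Fermat.Agent.S33

open Polynomial IsLocalRing

/-- The eigen-system `χ` of level `N` occurs at level `N₀`. -/
def OccursAtLevel (N₀ N : ℕ) [NeZero N₀] [NeZero N] (S : Finset ℕ) {𝒪' : Type} [CommRing 𝒪']
    (χ : CuspForm.heckeAlgebra N 2 (↑S : Set ℕ) →+* 𝒪') : Prop :=
  ∃ χ₀ : CuspForm.heckeAlgebra N₀ 2 (↑S : Set ℕ) →+* 𝒪',
    ∀ (ℓ : ℕ) (hℓ : ℓ.Prime) (hℓN : ¬ ℓ ∣ N) (hℓN₀ : ¬ ℓ ∣ N₀) (hℓS : ℓ ∉ (↑S : Set ℕ)),
      χ₀ (CuspForm.heckeAlgebra.T hℓ hℓN₀ hℓS) = χ (CuspForm.heckeAlgebra.T hℓ hℓN hℓS)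

/-- The conclusion of `OrdinaryPoints` for one point `χ`. -/
def OrdinaryPointAt (p N : ℕ) [NeZero N] (S : Finset ℕ) (𝒪' : Type) [CommRing 𝒪']
    [IsLocalRing 𝒪'] (χ : CuspForm.heckeAlgebra N 2 (↑S : Set ℕ) →+* 𝒪') : Prop :=
  ∃ (𝒪'' : Type) (_ : CommRing 𝒪'') (_ : IsDomain 𝒪'') (_ : IsDiscreteValuationRing 𝒪'')
    (_ : Algebra 𝒪' 𝒪''),
  Function.Injective (algebraMap 𝒪' 𝒪'') ∧ IsLocalHom (algebraMap 𝒪' 𝒪'') ∧
  ∃ ρ : GaloisRepAdic 𝒪'',
    (∀ (ℓ : ℕ) (hℓ : ℓ.Prime) (hℓN : ¬ ℓ ∣ N) (hℓS : ℓ ∉ (↑S : Set ℕ)),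
      ∀ A : ValuationSubring (AlgebraicClosure ℚ), A.LiesOverPrime ℓ →
        ∀ σ : AlgebraicClosure ℚ ≃ₐ[ℚ] AlgebraicClosure ℚ, A.IsFrobeniusAt σ ℓ →
          LinearMap.charpoly (ρ.ρ σ) =
            X ^ 2 - C (algebraMap 𝒪' 𝒪'' (χ (CuspForm.heckeAlgebra.T hℓ hℓN hℓS))) * X
              + C ((ℓ : 𝒪''))) ∧
    ((GaloisRepAdic.ofResidualGaloisRep ρ.residual).IsOrdinaryAt p → ρ.IsOrdinaryAt p)

/-- The points occurring at level `N₀`. -/
def OldOrdinary (p N₀ N : ℕ) [NeZero N₀] [NeZero N] (S : Finset ℕ) : Prop :=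
  ∀ (𝒪' : Type) [CommRing 𝒪'] [IsDomain 𝒪'] [IsDiscreteValuationRing 𝒪']
    [IsAdicComplete (IsLocalRing.maximalIdeal 𝒪') 𝒪'] [Finite (IsLocalRing.ResidueField 𝒪')]
    [CharZero 𝒪'] (_hp𝒪' : (p : 𝒪') ∈ IsLocalRing.maximalIdeal 𝒪')
    (χ : CuspForm.heckeAlgebra N 2 (↑S : Set ℕ) →+* 𝒪'),
    OccursAtLevel N₀ N S χ → OrdinaryPointAt p N S 𝒪' χ

/-- The points not occurring at level `N₀`. -/
def NewOrdinary (p N₀ N : ℕ) [NeZero N₀] [NeZero N] (S : Finset ℕ) : Prop :=
  ∀ (𝒪' : Type) [CommRing 𝒪'] [IsDomain 𝒪'] [IsDiscreteValuationRing 𝒪']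
    [IsAdicComplete (IsLocalRing.maximalIdeal 𝒪') 𝒪'] [Finite (IsLocalRing.ResidueField 𝒪')]
    [CharZero 𝒪'] (_hp𝒪' : (p : 𝒪') ∈ IsLocalRing.maximalIdeal 𝒪')
    (χ : CuspForm.heckeAlgebra N 2 (↑S : Set ℕ) →+* 𝒪'),
    ¬ OccursAtLevel N₀ N S χ → OrdinaryPointAt p N S 𝒪' χ

theorem ordinaryPoints_of_old_new {p N₀ N : ℕ} [NeZero N₀] [NeZero N] {S : Finset ℕ}
    (hold : OldOrdinary p N₀ N S) (hnew : NewOrdinary p N₀ N S) : OrdinaryPoints p N S := by
  classical
  intro 𝒪' _ _ _ _ _ _ hp𝒪' χ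
  by_cases h : OccursAtLevel N₀ N S χ
  · exact hold 𝒪' hp𝒪' χ h
  · exact hnew 𝒪' hp𝒪' χ h

variable {p : ℕ} {N : ℕ} [NeZero N] {S : Finset ℕ}
  {𝒪 : Type} [CommRing 𝒪] [IsDomain 𝒪] [IsDiscreteValuationRing 𝒪]
  [IsAdicComplete (IsLocalRing.maximalIdeal 𝒪) 𝒪]
  {θ : CuspForm.heckeAlgebra N 2 (↑S : Set ℕ) →+* IsLocalRing.ResidueField 𝒪}
  {T : Type} [CommRing T] [IsLocalRing T] [IsNoetherianRing T]
  [IsAdicComplete (IsLocalRing.maximalIdeal T) T] [Algebra 𝒪 T] [IsLocalHom (algebraMap 𝒪 T)]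
  [Module.Finite 𝒪 T] [Module.Free 𝒪 T]

/-- **S33 from the two suppliers** (binders of the frozen statement). -/
theorem s33_of_old_new
    (hold : ∀ (p N₀ N : ℕ) [NeZero N₀] [NeZero N] (S : Finset ℕ), p.Prime → p ≠ 2 →
      N = p * N₀ → ¬ p ∣ N₀ → (∀ q : ℕ, q.Prime → q ∣ N → q ∈ S) → OldOrdinary p N₀ N S)
    (hnew : ∀ (p N₀ N : ℕ) [NeZero N₀] [NeZero N] (S : Finset ℕ), p.Prime → p ≠ 2 →
      N = p * N₀ → ¬ p ∣ N₀ → (∀ q : ℕ, q.Prime → q ∣ N → q ∈ S) → NewOrdinary p N₀ N S)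
    [Finite (IsLocalRing.ResidueField 𝒪)] [CharZero 𝒪]
    (hp : p.Prime) (hp2 : p ≠ 2) (hp𝒪 : (p : 𝒪) ∈ IsLocalRing.maximalIdeal 𝒪)
    (hN : p ∣ N ∧ ¬ p ^ 2 ∣ N)
    (hNS : ∀ q : ℕ, q.Prime → q ∣ N → q ∈ S)
    (H : CuspForm.HeckeGaloisRepDatum N (↑S : Set ℕ) 𝒪 θ T)
    (hres : (GaloisRepAdic.ofResidualGaloisRep H.ρ.residual).IsOrdinaryAt p) :
    H.ρ.IsOrdinaryAt p := by
  obtain ⟨N₀, hN₀⟩ := hN.1
  have hN₀0 : N₀ ≠ 0 := by
    rintro rfl
    exact NeZero.ne N (by rw [hN₀, mul_zero])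
  haveI : NeZero N₀ := ⟨hN₀0⟩
  have hpN₀ : ¬ p ∣ N₀ := by
    rintro ⟨c, hc⟩
    exact hN.2 ⟨c, by rw [hN₀, hc]; ring⟩
  exact s33_of_ordinaryPoints
    (ordinaryPoints_of_old_new (hold p N₀ N S hp hp2 hN₀ hpN₀ hNS)
      (hnew p N₀ N S hp hp2 hN₀ hpN₀ hNS)) hp hp2 hp𝒪 hN hNS H hres

end Fermat.Agent.S33
end MergeWrap_S33_OldNew
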